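import Mathlib

set_option autoImplicit false

namespace Fermat.Agent.S28

open ArithmeticFunction

theorem sum_moebius_mul_gcd_sq (N : ℕ) (hN : 0 < N) (r : ℤ) (hr : ¬ (N : ℤ) ∣ r) :
    ∑ d ∈ N.divisors, (moebius (N / d) : ℤ) * ((Int.gcd d r : ℕ) : ℤ) ^ 2 = 0 := by
  set R : ℕ := r.natAbs with hR
  have hNR : ¬ N ∣ R := fun h => hr (Int.natCast_dvd.mpr h)
  let J : ℕ → ℤ := fun n =>
    ∑ x ∈ n.divisorsAntidiagonal, ((moebius x.fst : ℤ) : ℤ) * ((x.snd : ℤ) ^ 2)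
  have hJ : ∀ n : ℕ, n > 0 → ∑ i ∈ n.divisors, J i = (n : ℤ) ^ 2 :=
    (sum_eq_iff_sum_mul_moebius_eq (R := ℤ) (f := J) (g := fun n => (n : ℤ) ^ 2)).mpr
      (fun n _ => by simp only [J, Int.cast_id])
  let f : ℕ → ℤ := fun d => if d ∣ R then J d else 0
  let g : ℕ → ℤ := fun n => ((Nat.gcd n R : ℕ) : ℤ) ^ 2
  have hfg : ∀ n : ℕ, n > 0 → ∑ i ∈ n.divisors, f i = g n := by
    intro n hn
    have hpos : 0 < Nat.gcd n R := Nat.gcd_pos_of_pos_left _ hn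
    rw [show g n = ((Nat.gcd n R : ℕ) : ℤ) ^ 2 from rfl, ← hJ _ hpos, ← Finset.sum_filter]
    apply Finset.sum_congr _ (fun _ _ => rfl)
    ext d
    simp only [Finset.mem_filter, Nat.mem_divisors]
    constructor
    · rintro ⟨⟨h1, _⟩, h2⟩
      exact ⟨Nat.dvd_gcd h1 h2, hpos.ne'⟩
    · rintro ⟨h1, _⟩
      exact ⟨⟨h1.trans (Nat.gcd_dvd_left _ _), hn.ne'⟩, h1.trans (Nat.gcd_dvd_right _ _)⟩
  have key := (sum_eq_iff_sum_mul_moebius_eq (R := ℤ) (f := f) (g := g)).mp hfg N hN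
  simp only [Int.cast_id] at key
  rw [Nat.sum_divisorsAntidiagonal' (f := fun a b => (moebius a : ℤ) * g b)] at key
  rw [show f N = 0 from if_neg hNR] at key
  exact key

theorem sum_moebius_mul_self_pos (N : ℕ) (hN : 0 < N) :
    0 < ∑ d ∈ N.divisors, (moebius (N / d) : ℤ) * (d : ℤ) := by
  have hfg : ∀ n : ℕ, n > 0 → ∑ i ∈ n.divisors, ((Nat.totient i : ℕ) : ℤ) = (n : ℤ) := by
    intro n _
    rw [← Nat.cast_sum, Nat.sum_totient]
  have key := (sum_eq_iff_sum_mul_moebius_eq (R := ℤ) (f := fun i => ((Nat.totient i : ℕ) : ℤ))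
    (g := fun n => (n : ℤ))).mp hfg N hN
  simp only [Int.cast_id] at key
  rw [Nat.sum_divisorsAntidiagonal' (f := fun a b => (moebius a : ℤ) * (b : ℤ))] at key
  rw [key]
  exact_mod_cast Nat.totient_pos.mpr hN

end Fermat.Agent.S28
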