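import Fermat.Agent.S28.An.GoodU

set_option autoImplicit false

namespace Fermat.Agent.S28

open ModularCurve Polynomial UpperHalfPlane Complex
open scoped MatrixGroups Real Manifold

noncomputable section

theorem coeffMap_deltaL {R S : Type*} [CommRing R] [CommRing S] (f : R →+* S) :
    coeffMap f (deltaL R) = deltaL S := by
  rw [deltaL, map_mul, coeffMap_single, map_one, coeffMap_ofPowerSeries,
    ← RingHom.comp_apply (PowerSeries.map f) (PowerSeries.map (Int.castRingHom R)),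
    ← PowerSeries.map_comp, RingHom.ext_int (f.comp (Int.castRingHom R)) (Int.castRingHom S)]
  rfl

theorem coeffMap_deltaInvL {R S : Type*} [CommRing R] [CommRing S] (f : R →+* S) :
    coeffMap f (deltaInvL R) = deltaInvL S := by
  rw [deltaInvL, map_mul, coeffMap_single, map_one, coeffMap_ofPowerSeries,
    ← RingHom.comp_apply (PowerSeries.map f) (PowerSeries.map (Int.castRingHom R)),
    ← PowerSeries.map_comp, RingHom.ext_int (f.comp (Int.castRingHom R)) (Int.castRingHom S)]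
  rfl

theorem deltaL_ne_zero : deltaL ℂ ≠ 0 := by
  intro h0
  have := deltaL_mul_deltaInvL ℂ
  rw [h0, zero_mul] at this
  exact zero_ne_one this

theorem deltaInvL_eq_inv : deltaInvL ℂ = (deltaL ℂ)⁻¹ :=
  eq_inv_of_mul_eq_one_right (deltaL_mul_deltaInvL ℂ)

theorem order_deltaL : (deltaL ℂ).order = 1 := by
  apply order_eq_of_coeff
  · rw [deltaL, HahnSeries.coeff_single_mul, sub_self, one_mul]
    have := HahnSeries.ofPowerSeries_apply_coeff (Γ := ℤ)
      (dedekindEtaUnit.map (Int.castRingHom ℂ)) 0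
    rw [Nat.cast_zero] at this
    rw [this, PowerSeries.coeff_map, PowerSeries.coeff_zero_eq_constantCoeff,
      constantCoeff_dedekindEtaUnit]
    simp
  · intro k hk
    rw [deltaL, HahnSeries.coeff_single_mul, ofPowerSeries_coeff_of_neg _ (by omega), mul_zero]

theorem coeff_deltaL_mem (O : Subring ℂ) (m : ℤ) : (deltaL ℂ).coeff m ∈ O := by
  rw [← coeffMap_deltaL (Int.castRingHom ℂ), coeffMap_coeff]
  exact intCast_mem O _

theorem coeff_deltaInvL_mem (O : Subring ℂ) (m : ℤ) : (deltaInvL ℂ).coeff m ∈ O := by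
  rw [← coeffMap_deltaInvL (Int.castRingHom ℂ), coeffMap_coeff]
  exact intCast_mem O _

theorem rootU_pow_self (b : ℤ) {δ : ℕ} (hδ : 0 < δ) : rootU b δ ^ δ = 1 := by
  apply Units.ext
  rw [Units.val_pow_eq_pow_val, rootU, Units.val_mk0, ← Complex.exp_nat_mul, Units.val_one]
  have hδ' : (δ : ℂ) ≠ 0 := by exact_mod_cast hδ.ne'
  rw [show (δ : ℂ) * (2 * π * Complex.I * b / δ) = b * (2 * π * Complex.I) by
    field_simp]
  exact Complex.exp_int_mul_two_pi_mul_I b

theorem rootU_one (b : ℤ) : rootU b 1 = 1 := by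
  simpa using rootU_pow_self b (δ := 1) one_pos

theorem rootU_zpow_pow (b : ℤ) {δ N : ℕ} (hδ : 0 < δ) (hδN : δ ∣ N) (k : ℤ) :
    (((rootU b δ) ^ k : ℂˣ) : ℂ) ^ N = 1 := by
  obtain ⟨c, rfl⟩ := hδN
  rw [← Units.val_pow_eq_pow_val, ← zpow_natCast, ← zpow_mul, mul_comm, zpow_mul, zpow_natCast,
    pow_mul, rootU_pow_self b hδ, one_pow, one_zpow, Units.val_one]

theorem coeff_substL_mem (O : Subring ℂ) {N δ : ℕ} (b : ℤ) (hδ : 0 < δ) (hδN : δ ∣ N)
    (h2 : ∀ ζ : ℂ, ζ ^ N = 1 → ζ ∈ O) (m : ℕ) [NeZero m] {x : LaurentSeries ℂ}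
    (hx : ∀ k : ℤ, x.coeff k ∈ O) (k : ℤ) : (substL (rootU b δ) m x).coeff k ∈ O := by
  by_cases hk : (m : ℤ) ∣ k
  · obtain ⟨j, rfl⟩ := hk
    rw [substL_coeff_mul]
    exact O.mul_mem (h2 _ (rootU_zpow_pow b hδ hδN j)) (hx j)
  · rw [substL_coeff_of_not_dvd _ _ _ hk]
    exact O.zero_mem

theorem goodU_delta_aff {N a δ m : ℕ} [NeZero m] (b : ℤ) (hN : 0 < N) (ha : 0 < a) (hδ : 0 < δ)
    (hm : m * δ = a * N) (hδN : δ ∣ N) :
    GoodU N (fun τ => DeltaF (affH a b δ τ)) (substL (rootU b δ) m (deltaL ℂ)) m where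
  exp := isExp_delta.comp_affH b hN ha hδ hm
  expInv := by
    rw [← map_inv₀, ← deltaInvL_eq_inv]
    exact isExp_delta_inv.comp_affH b hN ha hδ hm
  ne := (_root_.map_ne_zero _).mpr deltaL_ne_zero
  order := by rw [order_substL, order_deltaL, mul_one]
  int := fun O _ h2 => by
    rw [← map_inv₀, ← deltaInvL_eq_inv]
    exact ⟨coeff_substL_mem O b hδ hδN h2 m (coeff_deltaL_mem O),
      coeff_substL_mem O b hδ hδN h2 m (coeff_deltaInvL_mem O)⟩

theorem affH_one_zero_one (τ : ℍ) : affH 1 0 1 τ = τ := by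
  apply UpperHalfPlane.ext
  rw [coe_affH 0 one_pos one_pos]
  simp

theorem goodU_delta (N : ℕ) [NeZero N] : GoodU N DeltaF (qExpand ℂ N (deltaL ℂ)) N := by
  have := goodU_delta_aff (N := N) (a := 1) (δ := 1) (m := N) 0 (Nat.pos_of_ne_zero (NeZero.ne N))
    one_pos one_pos (by ring) (one_dvd N)
  rw [rootU_one, substL_one] at this
  exact this.congr fun τ => by rw [affH_one_zero_one]

theorem goodU_ratio {N a δ m : ℕ} [NeZero N] [NeZero m] (b : ℤ) (ha : 0 < a) (hδ : 0 < δ)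
    (hm : m * δ = a * N) (hδN : δ ∣ N) :
    GoodU N (fun τ => ((δ : ℂ)⁻¹) ^ 12 * (DeltaF (affH a b δ τ) / DeltaF τ))
      (HahnSeries.C (((δ : ℂ)⁻¹) ^ 12) *
        (substL (rootU b δ) m (deltaL ℂ) * (qExpand ℂ N (deltaL ℂ))⁻¹)) ((m : ℤ) - N) := by
  have hδ' : (δ : ℂ) ≠ 0 := by exact_mod_cast hδ.ne'
  have hN' : (N : ℂ) ≠ 0 := by exact_mod_cast NeZero.ne N
  have h1 : GoodU N (fun _ => ((δ : ℂ)⁻¹) ^ 12) (HahnSeries.C (((δ : ℂ)⁻¹) ^ 12)) 0 := by
    apply goodU_const
    · exact pow_ne_zero _ (inv_ne_zero hδ')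
    · intro O h1 _
      constructor
      · apply O.pow_mem
        obtain ⟨c, rfl⟩ := hδN
        have : ((δ : ℂ))⁻¹ = (c : ℂ) * (((δ * c : ℕ) : ℂ))⁻¹ := by
          have hc : (c : ℂ) ≠ 0 := by
            intro h0
            apply hN'
            push_cast
            rw [h0, mul_zero]
          push_cast
          field_simp
        rw [this]
        exact O.mul_mem (natCast_mem O c) h1
      · rw [← inv_pow, inv_inv]
        exact O.pow_mem (natCast_mem O δ) _
  have h2 := goodU_delta_aff (N := N) (a := a) (δ := δ) (m := m) b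
    (Nat.pos_of_ne_zero (NeZero.ne N)) ha hδ hm hδN
  have h3 := h1.mul (h2.mul (goodU_delta N).inv)
  have h4 : (0 : ℤ) + ((m : ℤ) + -(N : ℤ)) = (m : ℤ) - N := by ring
  rw [h4] at h3
  exact h3.congr fun τ => by
    simp only [Pi.mul_apply, Pi.inv_apply, div_eq_mul_inv]

end

end Fermat.Agent.S28
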