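import Fermat.Agent.S28.An.Defs
import Fermat.Agent.Lib.LevelOneQExp

set_option autoImplicit false

namespace Fermat.Agent.S28

open ModularCurve Polynomial UpperHalfPlane Complex
open scoped MatrixGroups Real Manifold

noncomputable section

open Fermat.Agent.Lib.LevelOneQExp in
private theorem levelOne_tParam_one (τ : ℍ) :
    tParam 1 τ = Function.Periodic.qParam 1 (τ : ℂ) := by
  simp [tParam]

private theorem levelOne_tParam_ne_zero (τ : ℍ) : tParam 1 τ ≠ 0 :=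
  Function.Periodic.qParam_ne_zero _

private theorem levelOne_norm_tParam_lt (τ : ℍ) : ‖tParam 1 τ‖ < 1 := by
  rw [levelOne_tParam_one]
  exact Fermat.Agent.Lib.LevelOneQExp.norm_qParam_one_lt_one τ

theorem deltaL_mul_deltaInvL (A : Type*) [CommRing A] : deltaL A * deltaInvL A = 1 := by
  rw [deltaL, deltaInvL, mul_mul_mul_comm, HahnSeries.single_mul_single, ← map_mul, ← map_mul,
    dedekindEtaUnit_mul_inv]
  simp

/-- `E₄ = 1 + 240 ∑ σ₃(n) q^n`. -/
theorem isExp_E4 : IsExp 1 (fun τ => ModularForm.E₄ τ)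
    (HahnSeries.ofPowerSeries ℤ ℂ (eisenstein4.map (Int.castRingHom ℂ))) := by
  intro τ
  have h := Fermat.Agent.Lib.LevelOneQExp.isPS_cuspFunction_E4.hasSum_laurent 0
    (levelOne_norm_tParam_lt τ) (levelOne_tParam_ne_zero τ)
  rw [levelOne_tParam_one, Fermat.Agent.Lib.LevelOneQExp.cuspFunction_E4_qParam,
    ← levelOne_tParam_one] at h
  simpa using h

/-- `Δ = q ∏ (1 - q^n)^24`, formal product = analytic product. -/
theorem isExp_delta : IsExp 1 DeltaF (deltaL ℂ) := by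
  intro τ
  have h := Fermat.Agent.Lib.LevelOneQExp.isPS_etaUnit.hasSum_laurent 1
    (levelOne_norm_tParam_lt τ) (levelOne_tParam_ne_zero τ)
  have hv : DeltaF τ = tParam 1 τ ^ (1 : ℤ) *
      (∏' n : ℕ, (1 - tParam 1 τ ^ (n + 1))) ^ 24 := by
    rw [levelOne_tParam_one, zpow_one]
    exact Fermat.Agent.Lib.LevelOneQExp.discriminant_eq_qParam_mul τ
  rw [hv]
  exact h

theorem isExp_delta_inv : IsExp 1 (fun τ => (DeltaF τ)⁻¹) (deltaInvL ℂ) := by
  intro τ
  have h := Fermat.Agent.Lib.LevelOneQExp.isPS_etaUnitInv.hasSum_laurent (-1)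
    (levelOne_norm_tParam_lt τ) (levelOne_tParam_ne_zero τ)
  have hv : (DeltaF τ)⁻¹ = tParam 1 τ ^ (-1 : ℤ) *
      ((∏' n : ℕ, (1 - tParam 1 τ ^ (n + 1))) ^ 24)⁻¹ := by
    rw [levelOne_tParam_one, zpow_neg_one, ← mul_inv]
    exact congrArg _ (Fermat.Agent.Lib.LevelOneQExp.discriminant_eq_qParam_mul τ)
  show HasSum _ ((DeltaF τ)⁻¹)
  rw [hv]
  exact h

theorem isExp_jF : IsExp 1 jF (jqModC ℂ) := by
  intro τ
  have h := Fermat.Agent.Lib.LevelOneQExp.isPS_jNum.hasSum_laurent (-1)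
    (levelOne_norm_tParam_lt τ) (levelOne_tParam_ne_zero τ)
  have hv : jF τ = tParam 1 τ ^ (-1 : ℤ) * (cuspFunction 1 ModularForm.E₄ (tParam 1 τ) ^ 3 *
      ((∏' n : ℕ, (1 - tParam 1 τ ^ (n + 1))) ^ 24)⁻¹) := by
    rw [levelOne_tParam_one, Fermat.Agent.Lib.LevelOneQExp.cuspFunction_E4_qParam, jF, DeltaF,
      Fermat.Agent.Lib.LevelOneQExp.discriminant_eq_qParam_mul τ, zpow_neg_one, div_eq_mul_inv,
      mul_inv]
    ring
  rw [hv]
  exact h

end

end Fermat.Agent.S28
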