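import Fermat.Agent.S28.An.Defs

set_option autoImplicit false

namespace Fermat.Agent.S28

open ModularCurve Polynomial UpperHalfPlane Complex
open scoped MatrixGroups Real Manifold

noncomputable section

@[simp] theorem twistFun_coeff (c : ℂˣ) (f : LaurentSeries ℂ) (k : ℤ) :
    (twistFun c f).coeff k = ((c ^ k : ℂˣ) : ℂ) * f.coeff k := rfl

/-- `f(t) ↦ f(c t)` as a ring hom. -/
def twistL (c : ℂˣ) : LaurentSeries ℂ →+* LaurentSeries ℂ where
  toFun := twistFun c
  map_one' := by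
    ext k
    rw [twistFun_coeff, HahnSeries.coeff_one]
    split_ifs with h
    · subst h; simp
    · simp
  map_mul' := by
    intro f g
    ext k
    rw [twistFun_coeff, HahnSeries.coeff_mul, HahnSeries.coeff_mul, Finset.mul_sum]
    refine Finset.sum_congr ?_ ?_
    · ext ij
      have h1 : (c : ℂ) ^ ij.1 ≠ 0 := zpow_ne_zero _ c.ne_zero
      have h2 : (c : ℂ) ^ ij.2 ≠ 0 := zpow_ne_zero _ c.ne_zero
      simp [h1, h2]
    · intro ij hij
      have h := (Finset.mem_antidiagonal.mp hij).2.2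
      rw [twistFun_coeff, twistFun_coeff, ← h, zpow_add]
      push_cast
      ring
  map_zero' := by
    ext k
    simp
  map_add' := by
    intro f g
    ext k
    simp [mul_add]

@[simp] theorem twistL_coeff (c : ℂˣ) (f : LaurentSeries ℂ) (k : ℤ) :
    (twistL c f).coeff k = ((c ^ k : ℂˣ) : ℂ) * f.coeff k := rfl

/-- `f(x) ↦ f(c t^m)`. -/
def substL (c : ℂˣ) (m : ℕ) [NeZero m] : LaurentSeries ℂ →+* LaurentSeries ℂ :=
  (qExpand ℂ m).comp (twistL c)

theorem substL_coeff_mul (c : ℂˣ) (m : ℕ) [NeZero m] (f : LaurentSeries ℂ) (k : ℤ) :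
    (substL c m f).coeff ((m : ℤ) * k) = ((c ^ k : ℂˣ) : ℂ) * f.coeff k := by
  rw [substL, RingHom.comp_apply, qExpand_coeff_mul, twistL_coeff]

theorem substL_coeff_of_not_dvd (c : ℂˣ) (m : ℕ) [NeZero m] (f : LaurentSeries ℂ) {k : ℤ}
    (hk : ¬ (m : ℤ) ∣ k) : (substL c m f).coeff k = 0 := by
  rw [substL, RingHom.comp_apply, qExpand_coeff_of_not_dvd _ _ hk]

theorem substL_one (m : ℕ) [NeZero m] (f : LaurentSeries ℂ) : substL 1 m f = qExpand ℂ m f := by
  rw [substL, RingHom.comp_apply]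
  congr 1
  ext k
  simp

theorem order_substL (c : ℂˣ) (m : ℕ) [NeZero m] (f : LaurentSeries ℂ) :
    (substL c m f).order = (m : ℤ) * f.order := by
  by_cases hf : f = 0
  · subst hf
    simp
  have hm : (0 : ℤ) < m := by exact_mod_cast Nat.pos_of_ne_zero (NeZero.ne m)
  have h1 : (substL c m f).coeff ((m : ℤ) * f.order) ≠ 0 := by
    rw [substL_coeff_mul]
    exact mul_ne_zero (Units.ne_zero _) (fun h => hf (HahnSeries.coeff_order_eq_zero.mp h))
  have hg : substL c m f ≠ 0 := by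
    intro h
    rw [h] at h1
    simp at h1
  apply le_antisymm (HahnSeries.order_le_of_coeff_ne_zero h1)
  have h2 : (substL c m f).coeff (substL c m f).order ≠ 0 :=
    fun h => hg (HahnSeries.coeff_order_eq_zero.mp h)
  by_cases hd : (m : ℤ) ∣ (substL c m f).order
  · obtain ⟨k, hk⟩ := hd
    rw [hk] at h2 ⊢
    rw [substL_coeff_mul] at h2
    have h3 : f.coeff k ≠ 0 := right_ne_zero_of_mul h2
    exact mul_le_mul_of_nonneg_left (HahnSeries.order_le_of_coeff_ne_zero h3) hm.le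
  · exact absurd (substL_coeff_of_not_dvd c m f hd) h2

theorem coe_affH {a δ : ℕ} (b : ℤ) (ha : 0 < a) (hδ : 0 < δ) (τ : ℍ) :
    ((affH a b δ τ : ℍ) : ℂ) = ((a : ℂ) * τ + b) / δ := by
  have him : 0 < (((a : ℂ) * τ + b) / δ).im := by
    have e : (((a : ℂ) * τ + b) / δ).im = (a : ℝ) * τ.im / δ := by
      rw [Complex.div_natCast_im]
      simp
    rw [e]
    have := τ.im_pos
    positivity
  rw [affH, ofComplex_apply_of_im_pos him]

theorem tParam_affH {N a δ m : ℕ} (b : ℤ) (hN : 0 < N) (ha : 0 < a) (hδ : 0 < δ)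
    (hm : m * δ = a * N) (τ : ℍ) :
    tParam 1 (affH a b δ τ) = (rootU b δ : ℂ) * tParam N τ ^ m := by
  have hN' : (N : ℂ) ≠ 0 := Nat.cast_ne_zero.mpr hN.ne'
  have hδ' : (δ : ℂ) ≠ 0 := Nat.cast_ne_zero.mpr hδ.ne'
  have hm' : (m : ℂ) * δ = a * N := by exact_mod_cast hm
  rw [tParam, tParam, coe_affH b ha hδ, Function.Periodic.qParam, Function.Periodic.qParam, rootU,
    Units.val_mk0, ← Complex.exp_nat_mul, ← Complex.exp_add]
  congr 1
  push_cast
  field_simp
  linear_combination (-(τ : ℂ)) * hm'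

/-- substitution `τ ↦ (aτ+b)/δ` on expansions: `q ↦ exp(2πi b/δ) t^m` with `m/N = a/δ`. -/
theorem IsExp.comp_affH {h : ℍ → ℂ} {f : LaurentSeries ℂ} (H : IsExp 1 h f)
    {N a δ m : ℕ} [NeZero m] (b : ℤ) (hN : 0 < N) (ha : 0 < a) (hδ : 0 < δ)
    (hm : m * δ = a * N) :
    IsExp N (fun τ => h (affH a b δ τ)) (substL (rootU b δ) m f) := by
  intro τ
  have hm0 : (m : ℤ) ≠ 0 := by exact_mod_cast NeZero.ne m
  have hinj : Function.Injective (fun k : ℤ => (m : ℤ) * k) := mul_right_injective₀ hm0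
  have h0 : ∀ k ∉ Set.range (fun k : ℤ => (m : ℤ) * k),
      (substL (rootU b δ) m f).coeff k * tParam N τ ^ k = 0 := by
    intro k hk
    rw [substL_coeff_of_not_dvd, zero_mul]
    rintro ⟨j, rfl⟩
    exact hk ⟨j, rfl⟩
  rw [← hinj.hasSum_iff h0]
  have := H (affH a b δ τ)
  convert this using 2 with k
  simp only [Function.comp_apply]
  rw [substL_coeff_mul, tParam_affH b hN ha hδ hm, mul_zpow, zpow_mul, zpow_natCast]
  push_cast
  ring

end

end Fermat.Agent.S28
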