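import Fermat.Agent.S28.An.TransformA

set_option autoImplicit false

namespace Fermat.Agent.S28

open ModularCurve Polynomial UpperHalfPlane Complex
open scoped MatrixGroups Real Manifold

noncomputable section

namespace Transform

theorem affH_coe {a δ : ℕ} (b : ℤ) (ha : 0 < a) (hδ : 0 < δ) (τ : ℍ) :
    ((affH a b δ τ : ℍ) : ℂ) = ((a : ℂ) * τ + b) / δ := by
  unfold affH
  have h1 : (((a : ℂ) * τ + b) / δ) =
      (((a : ℝ) / (δ : ℝ) : ℝ) : ℂ) * τ + (((b : ℝ) / (δ : ℝ) : ℝ) : ℂ) := by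
    push_cast
    ring
  have h2 : 0 < (((a : ℂ) * τ + b) / δ).im := by
    rw [h1]
    simp only [add_im, mul_im, ofReal_re, ofReal_im, zero_mul, add_zero, coe_im]
    have := τ.im_pos
    positivity
  rw [ofComplex_apply_of_im_pos h2]

/-- the arithmetic part. -/
theorem exists_decomp (γ : SL(2, ℤ)) (d : ℕ) (hd : 0 < d) :
    ∃ (b : ℤ) (γ' : SL(2, ℤ)),
      γ' 0 0 * (Int.gcd d (γ 1 0) : ℤ) = d * γ 0 0 ∧
      γ' 0 0 * b + γ' 0 1 * ((d / Int.gcd d (γ 1 0) : ℕ) : ℤ) = d * γ 0 1 ∧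
      γ' 1 0 * (Int.gcd d (γ 1 0) : ℤ) = γ 1 0 ∧
      γ' 1 0 * b + γ' 1 1 * ((d / Int.gcd d (γ 1 0) : ℕ) : ℤ) = γ 1 1 := by
  set g := Int.gcd d (γ 1 0) with hg
  have hgpos : 0 < g := Int.gcd_pos_of_ne_zero_left _ (by exact_mod_cast hd.ne')
  have hgd : g ∣ d := by
    have : (g : ℤ) ∣ (d : ℤ) := Int.gcd_dvd_left _ _
    exact_mod_cast this
  obtain ⟨δ, hδ⟩ := hgd
  have hdiv : d / g = δ := by rw [hδ]; exact Nat.mul_div_cancel_left _ hgpos
  rw [hdiv]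
  obtain ⟨R, hR⟩ : (g : ℤ) ∣ γ 1 0 := Int.gcd_dvd_right _ _
  have hcop : IsCoprime R (δ : ℤ) := by
    have h := Int.isCoprime_iff_gcd_eq_one.mpr
      (Int.gcd_div_gcd_div_gcd (i := (d : ℤ)) (j := γ 1 0) (by rw [← hg]; exact hgpos))
    rw [← hg] at h
    have e1 : (d : ℤ) / (g : ℤ) = δ := by
      rw [hδ]; push_cast
      exact Int.mul_ediv_cancel_left _ (by exact_mod_cast hgpos.ne')
    have e2 : γ 1 0 / (g : ℤ) = R := by
      rw [hR]; exact Int.mul_ediv_cancel_left _ (by exact_mod_cast hgpos.ne')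
    rw [e1, e2] at h
    exact h.symm
  obtain ⟨u, v, huv⟩ := hcop
  have hdet : γ 0 0 * γ 1 1 - γ 0 1 * γ 1 0 = 1 := by
    have := γ.det_coe
    rw [Matrix.det_fin_two] at this
    exact this
  refine ⟨γ 1 1 * u,
    ⟨!![δ * γ 0 0, g * γ 0 1 - γ 0 0 * (γ 1 1 * u); R, γ 1 1 * v], ?_⟩, ?_, ?_, ?_, ?_⟩
  · rw [Matrix.det_fin_two_of]
    have : (γ 1 0) = g * R := hR
    rw [this] at hdet
    linear_combination (γ 0 0 * γ 1 1) * huv + hdet
  · simp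
    rw [hδ]; push_cast; ring
  · simp
    rw [hδ]; push_cast; ring
  · simp
    rw [hR]; ring
  · simp
    linear_combination (γ 1 1) * huv

end Transform

open Transform in
/-- `diag(d,1) γ = γ' (g b; 0 d/g)` with `g = gcd(d, γ₁₀)`, and what it does to `Δ` and `j`. -/
theorem exists_affH_smul (γ : SL(2, ℤ)) (d : ℕ) (hd : 0 < d) :
    ∃ b : ℤ, ∀ τ : ℍ,
      DeltaF (affH d 0 1 (γ • τ)) / DeltaF (γ • τ) =
        (((d / Int.gcd d (γ 1 0) : ℕ) : ℂ)⁻¹) ^ 12 *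
          (DeltaF (affH (Int.gcd d (γ 1 0)) b (d / Int.gcd d (γ 1 0)) τ) / DeltaF τ) ∧
      jF (affH d 0 1 (γ • τ)) = jF (affH (Int.gcd d (γ 1 0)) b (d / Int.gcd d (γ 1 0)) τ) := by
  obtain ⟨b, γ', h00, h01, h10, h11⟩ := exists_decomp γ d hd
  refine ⟨b, fun τ => ?_⟩
  set g := Int.gcd d (γ 1 0) with hg
  have hgpos : 0 < g := Int.gcd_pos_of_ne_zero_left _ (by exact_mod_cast hd.ne')
  have hgd : g ∣ d := by
    have : (g : ℤ) ∣ (d : ℤ) := Int.gcd_dvd_left _ _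
    exact_mod_cast this
  have hδpos : 0 < d / g := Nat.div_pos (Nat.le_of_dvd hd hgd) hgpos
  set δ := d / g with hδ
  set w := affH g b δ τ with hw
  have hwc : (w : ℂ) = ((g : ℂ) * τ + b) / δ := affH_coe b hgpos hδpos τ
  have hδC : (δ : ℂ) ≠ 0 := by exact_mod_cast hδpos.ne'
  have c00 : (γ' 0 0 : ℂ) * (g : ℂ) = d * γ 0 0 := by exact_mod_cast h00
  have c01 : (γ' 0 0 : ℂ) * b + γ' 0 1 * (δ : ℂ) = d * γ 0 1 := by exact_mod_cast h01
  have c10 : (γ' 1 0 : ℂ) * (g : ℂ) = γ 1 0 := by exact_mod_cast h10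
  have c11 : (γ' 1 0 : ℂ) * b + γ' 1 1 * (δ : ℂ) = γ 1 1 := by exact_mod_cast h11
  have hden : denom γ' w = denom γ τ / δ := by
    rw [ModularGroup.denom_apply, ModularGroup.denom_apply, hwc, eq_div_iff hδC]
    field_simp
    linear_combination (τ : ℂ) * c10 + c11
  have hsm : affH d 0 1 (γ • τ) = γ' • w := by
    apply UpperHalfPlane.ext
    rw [affH_coe 0 hd one_pos, coe_specialLinearGroup_apply, coe_specialLinearGroup_apply, hwc]
    have hd1 : ((γ 1 0 : ℤ) : ℂ) * τ + (γ 1 1 : ℤ) ≠ 0 := by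
      have := denom_ne_zero γ τ
      rwa [ModularGroup.denom_apply] at this
    have hd2 : ((γ' 1 0 : ℤ) : ℂ) * (((g : ℂ) * τ + b) / δ) + (γ' 1 1 : ℤ) ≠ 0 := by
      have := denom_ne_zero γ' w
      rwa [ModularGroup.denom_apply, hwc] at this
    simp only [algebraMap_int_eq, eq_intCast, ofReal_intCast, Int.cast_zero, add_zero,
      Nat.cast_one, div_one]
    rw [mul_div_assoc', div_eq_div_iff hd1 hd2]
    field_simp
    linear_combination (d : ℂ) * ((γ 0 0 : ℂ) * τ + (γ 0 1 : ℂ)) * ((τ : ℂ) * c10 + c11) -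
      ((τ : ℂ) * (γ 1 0 : ℂ) + (γ 1 1 : ℂ)) * ((τ : ℂ) * c00 + c01)
  have hdτ : denom γ τ ≠ 0 := denom_ne_zero γ τ
  constructor
  · rw [hsm, DeltaF_smul, DeltaF_smul, hden]
    have := DeltaF_ne_zero τ
    field_simp
  · rw [hsm, jF_smul]

end

end Fermat.Agent.S28
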