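import Fermat.Agent.S28.An.Dict
import Fermat.Agent.S28.An.LevelOne
import Fermat.Agent.S28.An.Subst
import Fermat.Agent.S28.An.Transform
import Fermat.Agent.S28.An.Arith
import Fermat.Agent.S28.An.GoodDelta

set_option autoImplicit false

namespace Fermat.Agent.S28

open ModularCurve Polynomial UpperHalfPlane Complex
open scoped MatrixGroups Real Manifold

noncomputable section

/-- exponent of `Δ(dτ)/Δ(τ)` in the modular unit. -/
def expo (N d : ℕ) : ℤ := -((ArithmeticFunction.moebius (N / d) : ℤ) * (d : ℤ))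

/-- the modular unit `v = ∏_{d ∣ N} (Δ(dτ)/Δ(τ))^{-μ(N/d) d}` as a function. -/
def vF (N : ℕ) (τ : ℍ) : ℂ :=
  ∏ d ∈ N.divisors, (DeltaF (affH d 0 1 τ) / DeltaF τ) ^ (expo N d)

/-- `j(dτ)` as a function. -/
def jdF (d : ℕ) (τ : ℍ) : ℂ := jF (affH d 0 1 τ)

/-- `Δ` as a unit of `ℤ((q))`. -/
def deltaUnit : (LaurentSeries ℤ)ˣ where
  val := deltaL ℤ
  inv := deltaInvL ℤ
  val_inv := deltaL_mul_deltaInvL ℤ
  inv_val := by rw [mul_comm]; exact deltaL_mul_deltaInvL ℤ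

/-- the formal modular unit, with integer coefficients. -/
def VZ (N : ℕ) : LaurentSeries ℤ :=
  ((∏ d ∈ N.divisors.attach,
    (haveI : NeZero d.1 := ⟨(Nat.pos_of_mem_divisors d.2).ne'⟩
     (Units.map (qExpand ℤ d.1).toMonoidHom deltaUnit * deltaUnit⁻¹) ^ (expo N d.1)) :
      (LaurentSeries ℤ)ˣ) : LaurentSeries ℤ)

theorem map_units_zpow {A K : Type*} [CommRing A] [Field K] (φ : A →+* K) (u : Aˣ) (n : ℤ) :
    φ ((u ^ n : Aˣ) : A) = (φ (u : A)) ^ n := by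
  calc φ ((u ^ n : Aˣ) : A) = ((Units.map (φ : A →* K) (u ^ n) : Kˣ) : K) := rfl
    _ = (((Units.map (φ : A →* K) u) ^ n : Kˣ) : K) := by rw [map_zpow]
    _ = ((Units.map (φ : A →* K) u : Kˣ) : K) ^ n := Units.val_zpow_eq_zpow_val _ _
    _ = _ := rfl

theorem goodU_factor_id (N d : ℕ) [NeZero N] [NeZero d] :
    GoodU N (fun τ => DeltaF (affH d 0 1 τ) / DeltaF τ)
      (qExpand ℂ N (qExpand ℂ d (deltaL ℂ)) * (qExpand ℂ N (deltaL ℂ))⁻¹)
      (((N * d : ℕ) : ℤ) - N) := by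
  have h := goodU_ratio (N := N) (a := d) (δ := 1) (m := N * d) 0
    (Nat.pos_of_ne_zero (NeZero.ne d)) one_pos (by ring) (one_dvd N)
  rw [rootU_one, substL_one, ← qExpand_qExpand] at h
  simp only [Nat.cast_one, inv_one, one_pow, map_one, one_mul] at h
  exact h

theorem iotaC_factor (N d : ℕ) [NeZero N] [NeZero d] :
    iotaC N ((Units.map (qExpand ℤ d).toMonoidHom deltaUnit * deltaUnit⁻¹ : (LaurentSeries ℤ)ˣ) :
      LaurentSeries ℤ) =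
      qExpand ℂ N (qExpand ℂ d (deltaL ℂ)) * (qExpand ℂ N (deltaL ℂ))⁻¹ := by
  have h1 : ((Units.map (qExpand ℤ d).toMonoidHom deltaUnit * deltaUnit⁻¹ : (LaurentSeries ℤ)ˣ) :
      LaurentSeries ℤ) = qExpand ℤ d (deltaL ℤ) * deltaInvL ℤ := rfl
  rw [h1, map_mul, iotaC, RingHom.comp_apply, RingHom.comp_apply, coeffMap_qExpand,
    coeffMap_deltaL, coeffMap_deltaInvL, deltaInvL_eq_inv, map_inv₀]

theorem isExp_vF (N : ℕ) [NeZero N] : IsExp N (vF N) (iotaC N (VZ N)) := by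
  have h1 : iotaC N (VZ N) = ∏ d ∈ N.divisors.attach,
      (haveI : NeZero d.1 := ⟨(Nat.pos_of_mem_divisors d.2).ne'⟩
       (qExpand ℂ N (qExpand ℂ d.1 (deltaL ℂ)) * (qExpand ℂ N (deltaL ℂ))⁻¹) ^ (expo N d.1)) := by
    unfold VZ
    rw [Units.coe_prod, map_prod]
    refine Finset.prod_congr rfl fun d _ => ?_
    haveI : NeZero d.1 := ⟨(Nat.pos_of_mem_divisors d.2).ne'⟩
    rw [map_units_zpow, iotaC_factor]
  rw [h1]
  have h2 := GoodU.prod (N := N) N.divisors.attach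
    (fun d => (fun τ => DeltaF (affH d.1 0 1 τ) / DeltaF τ) ^ (expo N d.1))
    (fun d => (haveI : NeZero d.1 := ⟨(Nat.pos_of_mem_divisors d.2).ne'⟩
       (qExpand ℂ N (qExpand ℂ d.1 (deltaL ℂ)) * (qExpand ℂ N (deltaL ℂ))⁻¹) ^ (expo N d.1)))
    (fun d => expo N d.1 * (((N * d.1 : ℕ) : ℤ) - N))
    (fun d _ => by
      haveI : NeZero d.1 := ⟨(Nat.pos_of_mem_divisors d.2).ne'⟩
      exact (goodU_factor_id N d.1).zpow (expo N d.1))
  refine h2.exp.congr fun τ => ?_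
  simp only [Finset.prod_apply, Pi.pow_apply]
  exact Finset.prod_attach N.divisors (fun d => (DeltaF (affH d 0 1 τ) / DeltaF τ) ^ expo N d)

theorem IsExp.affH_int {h : ℍ → ℂ} {f : LaurentSeries ℂ} (H : IsExp 1 h f) {d : ℕ} (hd : 0 < d)
    (b : ℤ) (τ : ℍ) : h (affH d b 1 τ) = h (affH d 0 1 τ) := by
  haveI : NeZero d := ⟨hd.ne'⟩
  have h1 := H.comp_affH (N := 1) (a := d) (δ := 1) (m := d) b one_pos hd one_pos rfl
  have h2 := H.comp_affH (N := 1) (a := d) (δ := 1) (m := d) 0 one_pos hd one_pos rfl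
  rw [rootU_one] at h1 h2
  exact h1.fun_unique h2 τ

theorem gcd_of_mem_Gamma0 {N : ℕ} {γ : SL(2, ℤ)} (hγ : γ ∈ CongruenceSubgroup.Gamma0 N) {d : ℕ}
    (hd : d ∣ N) : Int.gcd d (γ 1 0) = d := by
  rw [CongruenceSubgroup.Gamma0_mem, ZMod.intCast_zmod_eq_zero_iff_dvd] at hγ
  have h1 : (d : ℤ) ∣ γ 1 0 := (Int.natCast_dvd_natCast.mpr hd).trans hγ
  apply Nat.dvd_antisymm
  · exact_mod_cast Int.gcd_dvd_left (d : ℤ) (γ 1 0)
  · exact_mod_cast Int.dvd_coe_gcd (dvd_refl (d : ℤ)) h1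

theorem vF_smul_of_mem_Gamma0 (N : ℕ) [NeZero N] (γ : SL(2, ℤ))
    (hγ : γ ∈ CongruenceSubgroup.Gamma0 N) (τ : ℍ) : vF N (γ • τ) = vF N τ := by
  unfold vF
  refine Finset.prod_congr rfl fun d hd => ?_
  have hd0 : 0 < d := Nat.pos_of_mem_divisors hd
  obtain ⟨b, hb⟩ := exists_affH_smul γ d hd0
  have h1 := (hb τ).1
  rw [gcd_of_mem_Gamma0 hγ (Nat.dvd_of_mem_divisors hd), Nat.div_self hd0,
    isExp_delta.affH_int hd0 b τ] at h1
  rw [h1]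
  simp

theorem mdiff_vF (N : ℕ) [NeZero N] : MDiff (vF N) := by
  rw [UpperHalfPlane.mdifferentiable_iff]
  have h1 : ∀ d ∈ N.divisors, DifferentiableOn ℂ ((fun τ => DeltaF (affH d 0 1 τ)) ∘ ofComplex)
      {z | 0 < z.im} := fun d hd => UpperHalfPlane.mdifferentiable_iff.mp
        (mdiff_comp_affH mdiff_DeltaF 0 (Nat.pos_of_mem_divisors hd) one_pos)
  have h2 := UpperHalfPlane.mdifferentiable_iff.mp mdiff_DeltaF
  have h3 : (vF N ∘ ofComplex) = fun z => ∏ d ∈ N.divisors,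
      (((fun τ => DeltaF (affH d 0 1 τ)) ∘ ofComplex) z / (DeltaF ∘ ofComplex) z) ^ (expo N d) :=
    rfl
  rw [h3]
  refine DifferentiableOn.fun_finsetProd fun d hd => ?_
  exact DifferentiableOn.zpow ((h1 d hd).div h2 (fun z _ => DeltaF_ne_zero _))
    (Or.inl fun z _ => div_ne_zero (DeltaF_ne_zero _) (DeltaF_ne_zero _))

theorem gcd_facts {N d : ℕ} (hN : 0 < N) (hd : d ∈ N.divisors) (r : ℤ) :
    0 < Int.gcd d r ∧ 0 < d / Int.gcd d r ∧ d / Int.gcd d r ∣ N ∧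
      Int.gcd d r * (N / (d / Int.gcd d r)) ≠ 0 ∧
      Int.gcd d r * (N / (d / Int.gcd d r)) * (d / Int.gcd d r) = Int.gcd d r * N ∧
      d * (Int.gcd d r * (N / (d / Int.gcd d r))) = N * Int.gcd d r ^ 2 := by
  have hd0 : 0 < d := Nat.pos_of_mem_divisors hd
  have hdN : d ∣ N := Nat.dvd_of_mem_divisors hd
  set g := Int.gcd d r with hg
  have hg0 : 0 < g := Int.gcd_pos_of_ne_zero_left _ (by exact_mod_cast hd0.ne')
  have hgd : g ∣ d := by exact_mod_cast Int.gcd_dvd_left (d : ℤ) r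
  have hδ0 : 0 < d / g := Nat.div_pos (Nat.le_of_dvd hd0 hgd) hg0
  have hδN : d / g ∣ N := (Nat.div_dvd_of_dvd hgd).trans hdN
  have h5 : g * (N / (d / g)) * (d / g) = g * N := by rw [mul_assoc, Nat.div_mul_cancel hδN]
  refine ⟨hg0, hδ0, hδN, ?_, h5, ?_⟩
  · intro h0
    rw [h0, zero_mul] at h5
    exact (Nat.mul_pos hg0 hN).ne h5
  · have h6 : d = g * (d / g) := (Nat.mul_div_cancel' hgd).symm
    calc d * (g * (N / (d / g))) = (g * (d / g)) * (g * (N / (d / g))) := by rw [← h6]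
      _ = g * (g * (N / (d / g)) * (d / g)) := by ring
      _ = N * g ^ 2 := by rw [h5]; ring

theorem exists_goodU_factor (N : ℕ) [NeZero N] (γ : SL(2, ℤ)) (d : ℕ) (hd : d ∈ N.divisors) :
    ∃ f : LaurentSeries ℂ, GoodU N (fun τ => DeltaF (affH d 0 1 (γ • τ)) / DeltaF (γ • τ)) f
      (((Int.gcd d (γ 1 0) * (N / (d / Int.gcd d (γ 1 0))) : ℕ) : ℤ) - N) := by
  obtain ⟨b, hb⟩ := exists_affH_smul γ d (Nat.pos_of_mem_divisors hd)
  obtain ⟨hg0, hδ0, hδN, hm0, hm, -⟩ := gcd_facts (Nat.pos_of_ne_zero (NeZero.ne N)) hd (γ 1 0)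
  haveI : NeZero (Int.gcd d (γ 1 0) * (N / (d / Int.gcd d (γ 1 0)))) := ⟨hm0⟩
  exact ⟨_, (goodU_ratio (N := N) b hg0 hδ0 hm hδN).congr fun τ => ((hb τ).1).symm⟩

theorem order_sum (N : ℕ) [NeZero N] (r : ℤ) :
    ∑ d ∈ N.divisors, expo N d * (((Int.gcd d r * (N / (d / Int.gcd d r)) : ℕ) : ℤ) - N) =
      N * (∑ d ∈ N.divisors, (ArithmeticFunction.moebius (N / d) : ℤ) * (d : ℤ) -
        ∑ d ∈ N.divisors, (ArithmeticFunction.moebius (N / d) : ℤ) *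
          ((Int.gcd d r : ℕ) : ℤ) ^ 2) := by
  rw [← Finset.sum_sub_distrib, Finset.mul_sum]
  refine Finset.sum_congr rfl fun d hd => ?_
  obtain ⟨-, -, -, -, -, h6⟩ := gcd_facts (Nat.pos_of_ne_zero (NeZero.ne N)) hd r
  have h7 : (d : ℤ) * ((Int.gcd d r * (N / (d / Int.gcd d r)) : ℕ) : ℤ) =
      N * ((Int.gcd d r : ℕ) : ℤ) ^ 2 := by exact_mod_cast h6
  unfold expo
  linear_combination (-(ArithmeticFunction.moebius (N / d) : ℤ)) * h7

/-- expansions of the conjugates of the unit; the conjugates by `γ ∉ Γ₀(N)` vanish at `t = 0`,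
have coefficients in `ℤ[1/N, ζ_N]` and a unit leading coefficient. -/
theorem exists_isExp_vF_smul (N : ℕ) [NeZero N] (γ : SL(2, ℤ)) :
    ∃ f : LaurentSeries ℂ, IsExp N (fun τ => vF N (γ • τ)) f ∧
      (γ ∉ CongruenceSubgroup.Gamma0 N →
        (∀ m : ℤ, m ≤ 0 → f.coeff m = 0) ∧
        ∀ O : Subring ℂ, ((N : ℂ))⁻¹ ∈ O → (∀ ζ : ℂ, ζ ^ N = 1 → ζ ∈ O) →
          (∀ m : ℤ, f.coeff m ∈ O) ∧ ∃ m : ℤ, f.coeff m ≠ 0 ∧ (f.coeff m)⁻¹ ∈ O) := by
  have hN : 0 < N := Nat.pos_of_ne_zero (NeZero.ne N)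
  choose! f hf using exists_goodU_factor N γ
  have h1 := (GoodU.prod N.divisors _ _ _ fun d hd => (hf d hd).zpow (expo N d)).congr
    (h₂ := fun τ => vF N (γ • τ)) fun τ => by
      simp only [vF, Finset.prod_apply, Pi.pow_apply]
  refine ⟨_, h1.exp, fun hγ => h1.final ?_⟩
  rw [order_sum, sum_moebius_mul_gcd_sq N hN, sub_zero]
  · exact mul_pos (by exact_mod_cast hN) (sum_moebius_mul_self_pos N hN)
  · rwa [CongruenceSubgroup.Gamma0_mem, ZMod.intCast_zmod_eq_zero_iff_dvd] at hγ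

theorem isExp_jdF (N : ℕ) [NeZero N] (d : ℕ) [NeZero d] (hd : d ∣ N) :
    IsExp N (jdF d) (qExpand ℂ N (qExpand ℂ d (jqModC ℂ))) := by
  have h := isExp_jF.comp_affH (N := N) (a := d) (δ := 1) (m := N * d) 0
    (Nat.pos_of_ne_zero (NeZero.ne N)) (Nat.pos_of_ne_zero (NeZero.ne d)) one_pos (by ring)
  rw [rootU_one, substL_one, ← qExpand_qExpand] at h
  exact h

theorem jdF_smul_of_mem_Gamma0 (N : ℕ) [NeZero N] (d : ℕ) [NeZero d] (hd : d ∣ N)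
    (γ : SL(2, ℤ)) (hγ : γ ∈ CongruenceSubgroup.Gamma0 N) (τ : ℍ) :
    jdF d (γ • τ) = jdF d τ := by
  have hd0 : 0 < d := Nat.pos_of_ne_zero (NeZero.ne d)
  obtain ⟨b, hb⟩ := exists_affH_smul γ d hd0
  have h1 := (hb τ).2
  rw [gcd_of_mem_Gamma0 hγ hd, Nat.div_self hd0, isExp_jF.affH_int hd0 b τ] at h1
  exact h1

theorem mdiff_jdF (d : ℕ) [NeZero d] : MDiff (jdF d) :=
  mdiff_comp_affH mdiff_jF 0 (Nat.pos_of_ne_zero (NeZero.ne d)) one_pos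

theorem exists_isExp_jdF_smul (N : ℕ) [NeZero N] (d : ℕ) [NeZero d] (hd : d ∣ N)
    (γ : SL(2, ℤ)) : ∃ f : LaurentSeries ℂ, IsExp N (fun τ => jdF d (γ • τ)) f := by
  have hN : 0 < N := Nat.pos_of_ne_zero (NeZero.ne N)
  have hd' : d ∈ N.divisors := Nat.mem_divisors.mpr ⟨hd, NeZero.ne N⟩
  obtain ⟨b, hb⟩ := exists_affH_smul γ d (Nat.pos_of_mem_divisors hd')
  obtain ⟨hg0, hδ0, hδN, hm0, hm, -⟩ := gcd_facts hN hd' (γ 1 0)
  haveI : NeZero (Int.gcd d (γ 1 0) * (N / (d / Int.gcd d (γ 1 0)))) := ⟨hm0⟩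
  exact ⟨_, (isExp_jF.comp_affH b hN hg0 hδ0 hm).congr fun τ => ((hb τ).2).symm⟩

end

end Fermat.Agent.S28
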