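import Fermat.Agent.S28.AnalyticData

set_option autoImplicit false

namespace Fermat.Agent.S28

open ModularCurve Polynomial UpperHalfPlane Complex
open scoped MatrixGroups Real Manifold

noncomputable section

/-- the local parameter `t = exp(2πiτ/N)`. -/
def tParam (N : ℕ) (τ : ℍ) : ℂ := Function.Periodic.qParam (N : ℝ) (τ : ℂ)

/-- `h : ℍ → ℂ` is given on all of `ℍ` by the (absolutely) convergent Laurent series `f` in
`t = exp(2πiτ/N)`. -/
def IsExp (N : ℕ) (h : ℍ → ℂ) (f : LaurentSeries ℂ) : Prop :=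
  ∀ τ : ℍ, HasSum (fun k : ℤ => f.coeff k * tParam N τ ^ k) (h τ)

/-- `τ ↦ (aτ+b)/δ` on the upper half plane (junk unless `a, δ > 0`). -/
def affH (a : ℕ) (b : ℤ) (δ : ℕ) (τ : ℍ) : ℍ := ofComplex (((a : ℂ) * τ + b) / δ)

/-- the discriminant function. -/
abbrev DeltaF : ℍ → ℂ := ModularForm.discriminant

/-- the `j`-function. -/
def jF (τ : ℍ) : ℂ := (ModularForm.E₄ τ) ^ 3 / DeltaF τ

/-- the formal discriminant `q ∏ (1-q^n)^24` over any ring. -/
def deltaL (A : Type*) [CommRing A] : LaurentSeries A :=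
  HahnSeries.single (1 : ℤ) 1 *
    HahnSeries.ofPowerSeries ℤ A (dedekindEtaUnit.map (Int.castRingHom A))

/-- its formal inverse. -/
def deltaInvL (A : Type*) [CommRing A] : LaurentSeries A :=
  HahnSeries.single (-1 : ℤ) 1 *
    HahnSeries.ofPowerSeries ℤ A (dedekindEtaUnitInv.map (Int.castRingHom A))

/-- `f(t) ↦ f(c t)` on Laurent series. -/
def twistFun (c : ℂˣ) (f : LaurentSeries ℂ) : LaurentSeries ℂ where
  coeff k := ((c ^ k : ℂˣ) : ℂ) * f.coeff k
  isPWO_support' := f.isPWO_support.mono (fun k hk => by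
    simp only [Function.mem_support, ne_eq, mul_eq_zero, not_or] at hk
    exact hk.2)

/-- the root of unity `exp(2πi b/δ)` as a unit. -/
def rootU (b : ℤ) (δ : ℕ) : ℂˣ :=
  Units.mk0 (Complex.exp (2 * π * Complex.I * b / δ)) (Complex.exp_ne_zero _)

end

end Fermat.Agent.S28
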