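import Fermat.Agent.S28.An.Defs

set_option autoImplicit false

namespace Fermat.Agent.S28

open ModularCurve Polynomial UpperHalfPlane Complex
open scoped MatrixGroups Real Manifold

noncomputable section

variable {N : ℕ} {h h₁ h₂ : ℍ → ℂ} {f f₁ f₂ : LaurentSeries ℂ}

/-- shifting an expansion to nonnegative exponents. -/
theorem IsExp.dictB_hasSum_nat (H : IsExp N h f) (e : ℤ) (he : ∀ k < e, f.coeff k = 0) (τ : ℍ) :
    HasSum (fun m : ℕ => f.coeff (e + m) • Function.Periodic.qParam (N : ℝ) (τ : ℂ) ^ m)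
      (h τ * tParam N τ ^ (-e)) := by
  have ht : tParam N τ ≠ 0 := Function.Periodic.qParam_ne_zero _
  have hinj : Function.Injective (fun m : ℕ => e + (m : ℤ)) := by
    intro a b hab
    simpa using hab
  have h1 : HasSum ((fun k : ℤ => f.coeff k * tParam N τ ^ k) ∘ (fun m : ℕ => e + (m : ℤ)))
      (h τ) := by
    rw [hinj.hasSum_iff]
    · exact H τ
    · intro k hk
      have : k < e := by
        by_contra hlt
        push Not at hlt
        exact hk ⟨(k - e).toNat, by simp [Int.toNat_of_nonneg (sub_nonneg.mpr hlt)]⟩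
      simp [he k this]
  have h2 := h1.mul_right (tParam N τ ^ (-e))
  refine h2.congr_fun ?_
  intro m
  simp only [Function.comp_apply, smul_eq_mul, mul_assoc]
  congr 1
  rw [← zpow_add₀ ht]
  simp [tParam]

theorem dictB_cuspFunction_zero (r : ℝ) : cuspFunction r 0 = 0 := by
  simpa [cuspFunction, Function.Periodic.cuspFunction]
      using! (tendsto_const_nhds.mono_left nhdsWithin_le_nhds).limUnder_eq

/-- uniqueness of Laurent coefficients. -/
theorem IsExp.eq_zero (hN : 0 < N) (H : IsExp N 0 f) : f = 0 := by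
  have hN' : (0 : ℝ) < N := by exact_mod_cast hN
  have han : AnalyticAt ℂ (cuspFunction (N : ℝ) 0) 0 := by
    rw [dictB_cuspFunction_zero]; exact analyticAt_const
  have hs : ∀ τ : ℍ, HasSum (fun m : ℕ => f.coeff (f.order + m) •
      Function.Periodic.qParam (N : ℝ) (τ : ℂ) ^ m) ((0 : ℍ → ℂ) τ) := by
    intro τ
    have := H.dictB_hasSum_nat f.order (fun k hk => HahnSeries.coeff_eq_zero_of_lt_order hk) τ
    rw [Pi.zero_apply, zero_mul] at this
    exact this
  have key : ∀ m : ℕ, f.coeff (f.order + m) = 0 := by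
    intro m
    have h1 := (UpperHalfPlane.hasFPowerSeriesOnBall_cuspFunction hN' han hs).hasFPowerSeriesAt
    rw [dictB_cuspFunction_zero] at h1
    have h2 := h1.eq_zero
    have h3 := congr_arg (FormalMultilinearSeries.coeff · m) h2
    have h4 : FormalMultilinearSeries.coeff (0 : FormalMultilinearSeries ℂ ℂ ℂ) m = 0 := by
      simp only [FormalMultilinearSeries.coeff, FormalMultilinearSeries.zero_apply,
        _root_.zero_apply]
    simpa [h4] using h3
  ext k
  by_cases hk : k < f.order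
  · simpa using HahnSeries.coeff_eq_zero_of_lt_order hk
  · push Not at hk
    have := key (k - f.order).toNat
    rw [Int.toNat_of_nonneg (sub_nonneg.mpr hk)] at this
    simpa using this

theorem IsExp.unique (hN : 0 < N) (H₁ : IsExp N h f₁) (H₂ : IsExp N h f₂) : f₁ = f₂ := by
  have : IsExp N 0 (f₁ - f₂) := by
    intro τ
    have := (H₁ τ).sub (H₂ τ)
    simpa [sub_mul] using this
  exact sub_eq_zero.mp (this.eq_zero hN)

/-- `Δ / t` is bounded at `i∞`. -/
theorem dictB_isBounded_inv_tParam_mul_DeltaF (hN : 0 < N) :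
    IsBoundedAtImInfty (fun τ => (tParam N τ)⁻¹ * DeltaF τ) := by
  have hN' : (0 : ℝ) < N := by exact_mod_cast hN
  have h1 : IsBoundedAtImInfty (fun τ : ℍ => ∏' (n : ℕ), (1 - ModularForm.eta_q n (τ : ℂ)) ^ 24) :=
    ModularForm.tendsto_atImInfty_tprod_one_sub_eta_q_pow.isBigO_one ℝ
  have h2 : IsBoundedAtImInfty (fun τ : ℍ => tParam N τ ^ (N - 1)) := by
    refine Asymptotics.IsBigO.of_bound 1 (Filter.Eventually.of_forall fun τ => ?_)
    have : ‖tParam N τ‖ < 1 := Function.Periodic.norm_qParam_lt_one hN' τ.im_pos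
    simp only [norm_pow, Pi.one_apply, norm_one, mul_one]
    exact pow_le_one₀ (norm_nonneg _) this.le
  have h3 := h2.mul h1
  have heq : (fun τ => (tParam N τ)⁻¹ * DeltaF τ) = ((fun τ : ℍ => tParam N τ ^ (N - 1)) *
      fun τ : ℍ => ∏' (n : ℕ), (1 - ModularForm.eta_q n (τ : ℂ)) ^ 24) := by
    funext τ
    have ht : tParam N τ ≠ 0 := Function.Periodic.qParam_ne_zero _
    have hq : Function.Periodic.qParam 1 (τ : ℂ) = tParam N τ ^ N := by
      have hNc : (N : ℂ) ≠ 0 := by exact_mod_cast hN.ne'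
      simp only [tParam, Function.Periodic.qParam, ← Complex.exp_nat_mul]
      congr 1
      push_cast
      field_simp
    simp only [Pi.mul_apply, DeltaF, ModularForm.discriminant_eq_q_prod, hq]
    rw [← mul_assoc]
    congr 1
    obtain ⟨n, rfl⟩ : ∃ n, N = n + 1 := ⟨N - 1, by omega⟩
    simp only [Nat.add_sub_cancel, pow_succ]
    field_simp
  rw [heq]
  exact h3

/-- moderate growth at `i∞`. -/
theorem IsExp.exists_isBoundedAtImInfty (hN : 0 < N) (H : IsExp N h f) :
    ∃ M : ℕ, IsBoundedAtImInfty (fun τ => h τ * DeltaF τ ^ M) := by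
  have hN' : (0 : ℝ) < N := by exact_mod_cast hN
  refine ⟨(-f.order).toNat, ?_⟩
  set M := (-f.order).toNat with hM
  have hle : -(M : ℤ) ≤ f.order := by
    have := Int.self_le_toNat (-f.order)
    omega
  have h1 : IsBoundedAtImInfty (fun τ => h τ * tParam N τ ^ (-(-(M : ℤ)))) :=
    UpperHalfPlane.isBoundedAtImInfty_of_hasSum_qExpansion (h := (N : ℝ))
      (c := fun m : ℕ => f.coeff (-(M : ℤ) + m)) hN'
      (fun τ => H.dictB_hasSum_nat (-(M : ℤ))
        (fun k hk => HahnSeries.coeff_eq_zero_of_lt_order (lt_of_lt_of_le hk hle)) τ)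
  have h2 : IsBoundedAtImInfty (fun τ => ((tParam N τ)⁻¹ * DeltaF τ) ^ M) := by
    have h0 := dictB_isBounded_inv_tParam_mul_DeltaF hN
    have := Asymptotics.IsBigO.pow h0 M
    simp only [Pi.one_apply, one_pow] at this
    exact this
  have h3 := h1.mul h2
  have heq : (fun τ => h τ * DeltaF τ ^ M) =
      ((fun τ => h τ * tParam N τ ^ (- -(M : ℤ))) * fun τ => ((tParam N τ)⁻¹ * DeltaF τ) ^ M) := by
    funext τ
    have ht : tParam N τ ≠ 0 := Function.Periodic.qParam_ne_zero _
    simp only [Pi.mul_apply, neg_neg, zpow_natCast, mul_pow, inv_pow]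
    field_simp
  rw [heq]
  exact h3

end

end Fermat.Agent.S28
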