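import Fermat.Agent.S28.An.Defs

set_option autoImplicit false

namespace Fermat.Agent.S28

open ModularCurve Polynomial UpperHalfPlane Complex
open scoped MatrixGroups Real Manifold

noncomputable section

theorem DeltaF_ne_zero (τ : ℍ) : DeltaF τ ≠ 0 := ModularForm.discriminant_ne_zero τ

theorem DeltaF_smul (γ : SL(2, ℤ)) (τ : ℍ) :
    DeltaF (γ • τ) = (denom γ τ) ^ 12 * DeltaF τ := by
  have hγ : Matrix.SpecialLinearGroup.mapGL ℝ γ ∈ 𝒮ℒ := ⟨γ, rfl⟩
  have h := SlashInvariantForm.slash_action_eqn'' CuspForm.discriminant hγ τ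
  exact_mod_cast h

theorem E4_smul_aux (γ : SL(2, ℤ)) (τ : ℍ) :
    ModularForm.E₄ (γ • τ) = (denom γ τ) ^ 4 * ModularForm.E₄ τ := by
  have hγ : Matrix.SpecialLinearGroup.mapGL ℝ γ ∈ 𝒮ℒ := ⟨γ, rfl⟩
  have h := SlashInvariantForm.slash_action_eqn'' ModularForm.E₄ hγ τ
  exact_mod_cast h

theorem jF_smul (γ : SL(2, ℤ)) (τ : ℍ) : jF (γ • τ) = jF τ := by
  unfold jF
  rw [DeltaF_smul, E4_smul_aux]
  have h1 : denom γ τ ≠ 0 := denom_ne_zero _ τ
  have h2 := DeltaF_ne_zero τ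
  field_simp

theorem mdiff_DeltaF : MDiff DeltaF := CuspForm.discriminant.holo'

theorem mdiff_jF : MDiff jF := by
  have h4 : MDiff (ModularForm.E₄ : ℍ → ℂ) := ModularForm.E₄.holo'
  rw [UpperHalfPlane.mdifferentiable_iff] at h4 ⊢
  have hD := UpperHalfPlane.mdifferentiable_iff.1 mdiff_DeltaF
  have : jF ∘ ofComplex = fun z => ((ModularForm.E₄ : ℍ → ℂ) ∘ ofComplex) z ^ 3 /
      (DeltaF ∘ ofComplex) z := rfl
  rw [this]
  exact (h4.pow 3).div hD (fun z _ => DeltaF_ne_zero _)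

theorem mdiff_comp_affH {h : ℍ → ℂ} (hh : MDiff h) {a δ : ℕ} (b : ℤ) (ha : 0 < a) (hδ : 0 < δ) :
    MDiff (fun τ => h (affH a b δ τ)) := by
  rw [UpperHalfPlane.mdifferentiable_iff] at hh ⊢
  intro z hz
  have hz' : 0 < z.im := hz
  have haR : (0 : ℝ) < a := by exact_mod_cast ha
  have hδR : (0 : ℝ) < δ := by exact_mod_cast hδ
  have him : ∀ w : ℂ, 0 < w.im → 0 < ((((a : ℂ) * w + b) / δ)).im := by
    intro w hw
    have : ((((a : ℂ) * w + b) / δ)).im = a * w.im / δ := by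
      have e : (((a : ℂ) * w + b) / δ) = (((a : ℝ) : ℂ) * w + ((b : ℝ) : ℂ)) / ((δ : ℝ) : ℂ) := by
        push_cast
        ring
      rw [e, Complex.div_ofReal_im]
      simp
    rw [this]
    positivity
  have hopen : {w : ℂ | 0 < w.im} ∈ nhds z := isOpen_upperHalfPlaneSet.mem_nhds hz'
  have h1 : DifferentiableAt ℂ (h ∘ ofComplex) (((a : ℂ) * z + b) / δ) :=
    (hh _ (him z hz')).differentiableAt (isOpen_upperHalfPlaneSet.mem_nhds (him z hz'))
  have h2 : DifferentiableAt ℂ (fun w : ℂ => ((a : ℂ) * w + b) / δ) z := by fun_prop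
  have h3 : DifferentiableAt ℂ ((h ∘ ofComplex) ∘ (fun w : ℂ => ((a : ℂ) * w + b) / δ)) z :=
    h1.comp z h2
  refine (h3.congr_of_eventuallyEq ?_).differentiableWithinAt
  filter_upwards [hopen] with w hw
  have hw' : 0 < w.im := hw
  simp only [Function.comp_apply, affH, ofComplex_apply_of_im_pos hw', UpperHalfPlane.coe_mk]

theorem mdiff_comp_smul {h : ℍ → ℂ} (hh : MDiff h) (γ : SL(2, ℤ)) :
    MDiff (fun τ => h (γ • τ)) := by
  have hdet : 0 < (Matrix.SpecialLinearGroup.mapGL ℝ γ).det.val := by simp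
  exact hh.comp (UpperHalfPlane.mdifferentiable_smul hdet)

end

end Fermat.Agent.S28
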