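import Fermat.Agent.S28.An.Defs

set_option autoImplicit false

namespace Fermat.Agent.S28

open ModularCurve Polynomial UpperHalfPlane Complex
open scoped MatrixGroups Real Manifold

noncomputable section

variable {N : ℕ} {h h₁ h₂ : ℍ → ℂ} {f f₁ f₂ : LaurentSeries ℂ}

theorem tParam_ne_zero (N : ℕ) (τ : ℍ) : tParam N τ ≠ 0 := by
  unfold tParam Function.Periodic.qParam
  exact Complex.exp_ne_zero _

theorem isExp_single_mul (N : ℕ) (m : ℤ) (c : ℂ) :
    IsExp N (fun τ => c * tParam N τ ^ m) (HahnSeries.single m c) := by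
  intro τ
  have := hasSum_single (f := fun k : ℤ => (HahnSeries.single m c).coeff k * tParam N τ ^ k) m
    (by
      intro k hk
      rw [HahnSeries.coeff_single_of_ne hk, zero_mul])
  simpa using this

theorem isExp_C (N : ℕ) (c : ℂ) : IsExp N (fun _ => c) (HahnSeries.C c) := by
  have := isExp_single_mul N 0 c
  simpa using this

theorem isExp_zero (N : ℕ) : IsExp N 0 0 := by
  intro τ
  simp [hasSum_zero]

theorem isExp_one (N : ℕ) : IsExp N 1 1 := by
  have := isExp_C N 1
  rw [map_one] at this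
  exact this

theorem isExp_single (N : ℕ) (m : ℤ) :
    IsExp N (fun τ => tParam N τ ^ m) (HahnSeries.single m 1) := by
  have := isExp_single_mul N m 1
  simpa using this

theorem IsExp.add (H₁ : IsExp N h₁ f₁) (H₂ : IsExp N h₂ f₂) : IsExp N (h₁ + h₂) (f₁ + f₂) := by
  intro τ
  have := (H₁ τ).add (H₂ τ)
  simpa [add_mul] using this

theorem IsExp.neg (H : IsExp N h f) : IsExp N (-h) (-f) := by
  intro τ
  have := (H τ).neg
  simpa using this

lemma hasSum_coeff_mul (f₁ f₂ : LaurentSeries ℂ) (t : ℂ) (ht0 : t ≠ 0) (k : ℤ) :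
    HasSum (fun i : ℤ => f₁.coeff i * t ^ i * (f₂.coeff (k - i) * t ^ (k - i)))
      ((f₁ * f₂).coeff k * t ^ k) := by
  rw [HahnSeries.coeff_mul, Finset.sum_mul]
  have hinj : Set.InjOn Prod.fst
      (↑(Finset.antidiagonal f₁.isPWO_support f₂.isPWO_support k) : Set (ℤ × ℤ)) := by
    intro x hx y hy hxy
    rw [Finset.mem_coe, Finset.mem_antidiagonal] at hx hy
    ext
    · exact hxy
    · have := hx.2.2
      have := hy.2.2
      omega
  have hsum : ∑ i ∈ Finset.antidiagonal f₁.isPWO_support f₂.isPWO_support k,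
      f₁.coeff i.1 * f₂.coeff i.2 * t ^ k =
      ∑ i ∈ (Finset.antidiagonal f₁.isPWO_support f₂.isPWO_support k).image Prod.fst,
        f₁.coeff i * t ^ i * (f₂.coeff (k - i) * t ^ (k - i)) := by
    rw [Finset.sum_image hinj]
    refine Finset.sum_congr rfl (fun x hx => ?_)
    rw [Finset.mem_antidiagonal] at hx
    have hk : k - x.1 = x.2 := by have := hx.2.2; omega
    rw [hk, ← hx.2.2, zpow_add₀ ht0]
    ring
  rw [hsum]
  apply hasSum_sum_of_ne_finset_zero
  intro i hi
  by_contra hne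
  apply hi
  rw [Finset.mem_image]
  refine ⟨(i, k - i), ?_, rfl⟩
  rw [Finset.mem_antidiagonal]
  refine ⟨?_, ?_, by simp⟩
  · rw [HahnSeries.mem_support]
    intro h0
    apply hne
    rw [h0]; ring
  · rw [HahnSeries.mem_support]
    intro h0
    apply hne
    rw [h0]; ring

lemma hasSum_cauchy_int {a b c : ℤ → ℂ} {A B : ℂ} (ha : HasSum a A) (hb : HasSum b B)
    (hc : ∀ k, HasSum (fun i => a i * b (k - i)) (c k)) : HasSum c (A * B) := by
  have hs : Summable fun x : ℤ × ℤ => a x.1 * b x.2 :=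
    summable_mul_of_summable_norm ha.summable.norm hb.summable.norm
  have h12 := ha.mul hb hs
  let e : ℤ × ℤ ≃ ℤ × ℤ :=
    { toFun := fun x => (x.2, x.1 - x.2)
      invFun := fun x => (x.1 + x.2, x.1)
      left_inv := fun x => by ext <;> simp
      right_inv := fun x => by ext <;> simp }
  have h3 : HasSum (fun x : ℤ × ℤ => a x.2 * b (x.1 - x.2)) (A * B) := (e.hasSum_iff).mpr h12
  exact HasSum.prod_fiberwise h3 hc

theorem IsExp.mul (H₁ : IsExp N h₁ f₁) (H₂ : IsExp N h₂ f₂) : IsExp N (h₁ * h₂) (f₁ * f₂) :=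
  fun τ => hasSum_cauchy_int (H₁ τ) (H₂ τ)
    (fun k => hasSum_coeff_mul f₁ f₂ (tParam N τ) (tParam_ne_zero N τ) k)

/-- the graph of the expansion relation, as a subring. -/
def expSubring (N : ℕ) : Subring ((ℍ → ℂ) × LaurentSeries ℂ) where
  carrier := {p | IsExp N p.1 p.2}
  mul_mem' := fun ha hb => IsExp.mul ha hb
  one_mem' := isExp_one N
  add_mem' := fun ha hb => IsExp.add ha hb
  zero_mem' := isExp_zero N
  neg_mem' := fun ha => IsExp.neg ha

theorem IsExp.pow (H : IsExp N h f) (n : ℕ) : IsExp N (h ^ n) (f ^ n) := by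
  have : ((h, f) : (ℍ → ℂ) × LaurentSeries ℂ) ^ n ∈ expSubring N :=
    Subring.pow_mem _ (show (h, f) ∈ expSubring N from H) n
  exact this

theorem IsExp.zpow (H : IsExp N h f) (H' : IsExp N h⁻¹ f⁻¹) (n : ℤ) :
    IsExp N (h ^ n) (f ^ n) := by
  cases n with
  | ofNat n =>
    simpa using H.pow n
  | negSucc n =>
    have := H'.pow (n + 1)
    rw [zpow_negSucc, zpow_negSucc, ← inv_pow, ← inv_pow]
    exact this

theorem IsExp.prod {ι : Type*} (s : Finset ι) (hh : ι → ℍ → ℂ) (ff : ι → LaurentSeries ℂ)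
    (H : ∀ i ∈ s, IsExp N (hh i) (ff i)) : IsExp N (∏ i ∈ s, hh i) (∏ i ∈ s, ff i) := by
  have : ∏ i ∈ s, ((hh i, ff i) : (ℍ → ℂ) × LaurentSeries ℂ) ∈ expSubring N :=
    Subring.prod_mem _ (fun i hi => show (hh i, ff i) ∈ expSubring N from H i hi)
  have h2 : ∏ i ∈ s, ((hh i, ff i) : (ℍ → ℂ) × LaurentSeries ℂ) =
      (∏ i ∈ s, hh i, ∏ i ∈ s, ff i) := by
    ext1
    · simp [Prod.fst_prod]
    · simp [Prod.snd_prod]
  rw [h2] at this
  exact this

theorem IsExp.aeval (H : IsExp N h f) (P : ℂ[X]) :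
    IsExp N (fun τ => P.eval (h τ)) (evP ℂ f P) := by
  induction P using Polynomial.induction_on' with
  | add p q hp hq =>
    have := hp.add hq
    simpa [evP, Pi.add_def] using this
  | monomial n a =>
    have := (isExp_C N a).mul (H.pow n)
    have h1 : (fun τ => (Polynomial.monomial n a).eval (h τ)) = (fun _ => a) * h ^ n := by
      ext τ; simp
    have h2 : evP ℂ f (Polynomial.monomial n a) = HahnSeries.C a * f ^ n := by
      simp only [evP, AlgHom.toRingHom_eq_coe, RingHom.coe_coe, Polynomial.aeval_monomial]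
      rw [HahnSeries.algebraMap_apply', ← HahnSeries.ofPowerSeries_C]
      rfl
    rw [h1, h2]
    exact this

end

end Fermat.Agent.S28
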