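import Fermat.Agent.S28.An.Dict
import Fermat.Agent.S28.An.LevelOne
import Fermat.Agent.S28.An.Subst

set_option autoImplicit false

namespace Fermat.Agent.S28

open ModularCurve Polynomial UpperHalfPlane Complex
open scoped MatrixGroups Real Manifold

noncomputable section

/-- a nowhere vanishing function with an expansion which is a unit with coefficients (of it and of
its inverse) in `ℤ[1/N, ζ_N]`, of order `e`. -/
structure GoodU (N : ℕ) (h : ℍ → ℂ) (f : LaurentSeries ℂ) (e : ℤ) : Prop where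
  exp : IsExp N h f
  expInv : IsExp N h⁻¹ f⁻¹
  ne : f ≠ 0
  order : f.order = e
  int : ∀ O : Subring ℂ, ((N : ℂ))⁻¹ ∈ O → (∀ ζ : ℂ, ζ ^ N = 1 → ζ ∈ O) →
    (∀ m : ℤ, f.coeff m ∈ O) ∧ (∀ m : ℤ, f⁻¹.coeff m ∈ O)

variable {N : ℕ} {h h₁ h₂ : ℍ → ℂ} {f f₁ f₂ : LaurentSeries ℂ} {e e₁ e₂ : ℤ}

theorem IsExp.congr (H : IsExp N h₁ f) (hh : ∀ τ, h₁ τ = h₂ τ) : IsExp N h₂ f := by
  have : h₁ = h₂ := funext hh
  rwa [← this]

theorem IsExp.fun_unique (H₁ : IsExp N h₁ f) (H₂ : IsExp N h₂ f) (τ : ℍ) : h₁ τ = h₂ τ :=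
  (H₁ τ).unique (H₂ τ)

theorem coeff_mul_mem (O : Subring ℂ) {x y : LaurentSeries ℂ} (hx : ∀ m : ℤ, x.coeff m ∈ O)
    (hy : ∀ m : ℤ, y.coeff m ∈ O) (m : ℤ) : (x * y).coeff m ∈ O := by
  rw [HahnSeries.coeff_mul]
  exact O.sum_mem fun ij _ => O.mul_mem (hx _) (hy _)

theorem order_inv_L {x : LaurentSeries ℂ} (hx : x ≠ 0) : x⁻¹.order = -x.order := by
  have h1 : (x * x⁻¹).order = x.order + x⁻¹.order := HahnSeries.order_mul hx (inv_ne_zero hx)
  rw [mul_inv_cancel₀ hx, HahnSeries.order_one] at h1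
  linarith

theorem order_eq_of_coeff {x : LaurentSeries ℂ} {e : ℤ} (h1 : x.coeff e ≠ 0)
    (h2 : ∀ k : ℤ, k < e → x.coeff k = 0) : x.order = e := by
  have hx : x ≠ 0 := HahnSeries.ne_zero_of_coeff_ne_zero h1
  refine le_antisymm (HahnSeries.order_le_of_coeff_ne_zero h1) ?_
  by_contra hlt
  exact hx (HahnSeries.coeff_order_eq_zero.mp (h2 _ (not_le.mp hlt)))

theorem GoodU.congr (H : GoodU N h₁ f e) (hh : ∀ τ, h₁ τ = h₂ τ) : GoodU N h₂ f e := by
  have : h₁ = h₂ := funext hh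
  rwa [← this]

theorem GoodU.mul (H₁ : GoodU N h₁ f₁ e₁) (H₂ : GoodU N h₂ f₂ e₂) :
    GoodU N (h₁ * h₂) (f₁ * f₂) (e₁ + e₂) where
  exp := H₁.exp.mul H₂.exp
  expInv := by rw [mul_inv, mul_inv]; exact H₁.expInv.mul H₂.expInv
  ne := mul_ne_zero H₁.ne H₂.ne
  order := by rw [HahnSeries.order_mul H₁.ne H₂.ne, H₁.order, H₂.order]
  int := fun O h1 h2 => ⟨coeff_mul_mem O (H₁.int O h1 h2).1 (H₂.int O h1 h2).1, by
    rw [mul_inv]; exact coeff_mul_mem O (H₁.int O h1 h2).2 (H₂.int O h1 h2).2⟩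

theorem GoodU.inv (H : GoodU N h f e) : GoodU N h⁻¹ f⁻¹ (-e) where
  exp := H.expInv
  expInv := by rw [inv_inv, inv_inv]; exact H.exp
  ne := inv_ne_zero H.ne
  order := by rw [order_inv_L H.ne, H.order]
  int := fun O h1 h2 => ⟨(H.int O h1 h2).2, by rw [inv_inv]; exact (H.int O h1 h2).1⟩

theorem GoodU.one (N : ℕ) : GoodU N 1 1 0 where
  exp := isExp_one N
  expInv := by rw [inv_one, inv_one]; exact isExp_one N
  ne := one_ne_zero
  order := HahnSeries.order_one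
  int := fun O _ _ => by
    rw [inv_one]
    have : ∀ m : ℤ, (1 : LaurentSeries ℂ).coeff m ∈ O := fun m => by
      rw [HahnSeries.coeff_one]
      split_ifs
      · exact O.one_mem
      · exact O.zero_mem
    exact ⟨this, this⟩

theorem GoodU.pow (H : GoodU N h f e) (n : ℕ) : GoodU N (h ^ n) (f ^ n) (n * e) := by
  induction n with
  | zero => simpa using GoodU.one N
  | succ n ih =>
    have := ih.mul H
    rw [pow_succ, pow_succ]
    convert this using 1
    push_cast; ring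

theorem GoodU.zpow (H : GoodU N h f e) (n : ℤ) : GoodU N (h ^ n) (f ^ n) (n * e) := by
  cases n with
  | ofNat n => simpa using H.pow n
  | negSucc n =>
    rw [zpow_negSucc, zpow_negSucc]
    convert (H.pow (n + 1)).inv using 1
    rw [Int.negSucc_eq]; push_cast; ring

theorem GoodU.prod {ι : Type*} (s : Finset ι) (hh : ι → ℍ → ℂ) (ff : ι → LaurentSeries ℂ)
    (ee : ι → ℤ) (H : ∀ i ∈ s, GoodU N (hh i) (ff i) (ee i)) :
    GoodU N (∏ i ∈ s, hh i) (∏ i ∈ s, ff i) (∑ i ∈ s, ee i) := by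
  classical
  induction s using Finset.induction_on with
  | empty => simpa using GoodU.one N
  | insert a s ha ih =>
    rw [Finset.prod_insert ha, Finset.prod_insert ha, Finset.sum_insert ha]
    exact (H a (Finset.mem_insert_self a s)).mul
      (ih fun i hi => H i (Finset.mem_insert_of_mem hi))

/-- what we finally need from a good unit of positive order. -/
theorem GoodU.final (H : GoodU N h f e) (he : 0 < e) :
    (∀ m : ℤ, m ≤ 0 → f.coeff m = 0) ∧
      ∀ O : Subring ℂ, ((N : ℂ))⁻¹ ∈ O → (∀ ζ : ℂ, ζ ^ N = 1 → ζ ∈ O) →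
        (∀ m : ℤ, f.coeff m ∈ O) ∧ ∃ m : ℤ, f.coeff m ≠ 0 ∧ (f.coeff m)⁻¹ ∈ O := by
  refine ⟨fun m hm => HahnSeries.coeff_eq_zero_of_lt_order (by rw [H.order]; omega),
    fun O h1 h2 => ⟨(H.int O h1 h2).1, f.order, ?_, ?_⟩⟩
  · exact fun h0 => H.ne (HahnSeries.coeff_order_eq_zero.mp h0)
  · have h3 := HahnSeries.coeff_mul_order_add_order f f⁻¹
    rw [mul_inv_cancel₀ H.ne, order_inv_L H.ne, add_neg_cancel, HahnSeries.coeff_one, if_pos rfl,
      HahnSeries.leadingCoeff_eq, HahnSeries.leadingCoeff_eq] at h3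
    rw [← eq_inv_of_mul_eq_one_right h3.symm]
    exact (H.int O h1 h2).2 _

theorem goodU_const (N : ℕ) (c : ℂ) (hc : c ≠ 0)
    (hO : ∀ O : Subring ℂ, ((N : ℂ))⁻¹ ∈ O → (∀ ζ : ℂ, ζ ^ N = 1 → ζ ∈ O) → c ∈ O ∧ c⁻¹ ∈ O) :
    GoodU N (fun _ => c) (HahnSeries.C c) 0 where
  exp := isExp_C N c
  expInv := by
    rw [← map_inv₀]
    exact isExp_C N c⁻¹
  ne := by
    intro h0
    apply hc
    have := congrArg (fun x => HahnSeries.coeff x 0) h0
    simpa using this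
  order := HahnSeries.order_C
  int := fun O h1 h2 => by
    rw [← map_inv₀]
    have : ∀ c : ℂ, c ∈ O → ∀ m : ℤ, (HahnSeries.C c : LaurentSeries ℂ).coeff m ∈ O := by
      intro c hc m
      rw [HahnSeries.C_apply, HahnSeries.coeff_single]
      split_ifs
      · exact hc
      · exact O.zero_mem
    exact ⟨this c (hO O h1 h2).1, this _ (hO O h1 h2).2⟩

end

end Fermat.Agent.S28
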