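import Fermat.Agent.S28.An.Defs

set_option autoImplicit false

namespace Fermat.Agent.S28

open ModularCurve Polynomial UpperHalfPlane Complex
open scoped MatrixGroups Real Manifold

noncomputable section

section helpers

open Filter Topology ModularForm EisensteinSeries

private lemma lemJ_periodic {f : ℍ → ℂ} (hinv : ∀ (γ : SL(2, ℤ)) (τ : ℍ), f (γ • τ) = f τ) :
    Function.Periodic (f ∘ ofComplex) 1 := by
  intro w
  by_cases! hw : 0 < w.im
  · have hw' : 0 < (w + 1).im := by simpa using hw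
    simp only [Function.comp_apply, ofComplex_apply_of_im_pos hw', ofComplex_apply_of_im_pos hw]
    rw [← hinv ModularGroup.T ⟨w, hw⟩, UpperHalfPlane.modular_T_smul]
    congr 1
    ext
    simp [add_comm]
  · have : (w + 1).im ≤ 0 := by simpa using hw
    simp [ofComplex_apply_of_im_nonpos this, ofComplex_apply_of_im_nonpos hw]

private lemma lemJ_periodic_form {k : ℤ} (f : ModularForm 𝒮ℒ k) :
    Function.Periodic ((f : ℍ → ℂ) ∘ ofComplex) 1 :=
  SlashInvariantFormClass.periodic_comp_ofComplex f one_mem_strictPeriods_SL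

private lemma lemJ_periodic_Delta : Function.Periodic (DeltaF ∘ ofComplex) 1 :=
  SlashInvariantFormClass.periodic_comp_ofComplex CuspForm.discriminant one_mem_strictPeriods_SL

private lemma lemJ_tendsto {f : ℍ → ℂ} (hper : Function.Periodic (f ∘ ofComplex) 1) (hhol : MDiff f)
    (hbdd : IsBoundedAtImInfty f) : Tendsto f atImInfty (𝓝 (cuspFunction 1 f 0)) := by
  have han := analyticAt_cuspFunction_zero one_pos hper hhol hbdd
  have ht := han.continuousAt.tendsto.comp (qParam_tendsto_atImInfty one_pos)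
  refine ht.congr fun z => ?_
  simpa using eq_cuspFunction z one_ne_zero hper

private lemma lemJ_tendsto_E4 : Tendsto E₄ atImInfty (𝓝 1) := by
  have han := ModularFormClass.analyticAt_cuspFunction_zero E₄ one_pos one_mem_strictPeriods_SL
  have h := lemJ_tendsto (lemJ_periodic_form E₄) E₄.holo' (ModularFormClass.bdd_at_infty E₄)
  rwa [cuspFunction_apply_zero one_pos han (lemJ_periodic_form E₄),
    ← qExpansion_coeff_zero one_pos han (lemJ_periodic_form E₄),
    E_qExpansion_coeff_zero _ ⟨2, rfl⟩] at h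

private lemma lemJ_const {h : ℍ → ℂ} (hhol : MDiff h)
    (hinv : ∀ (γ : SL(2, ℤ)) (τ : ℍ), h (γ • τ) = h τ) (hbd : IsBoundedAtImInfty h) :
    ∃ c : ℂ, ∀ τ, h τ = c := by
  have hinv' : ∀ γ : SL(2, ℤ), h ∣[(0 : ℤ)] γ = h := fun γ => by
    ext τ
    rw [ModularForm.SL_slash_apply, hinv]
    simp
  let G : ModularForm 𝒮ℒ 0 :=
    { toFun := h
      slash_action_eq' := fun _ ⟨γ, hγ⟩ ↦ hγ ▸ hinv' γ
      holo' := hhol
      bdd_at_cusps' := fun {c} hc => by
        rw [Subgroup.IsArithmetic.isCusp_iff_isCusp_SL2Z] at hc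
        rw [OnePoint.isBoundedAt_iff_forall_SL2Z hc]
        intro γ _
        rw [hinv' γ]
        exact hbd }
  obtain ⟨c, hc⟩ := ModularFormClass.levelOne_weight_zero_const G
  exact ⟨c, fun τ => congrFun hc τ⟩

private lemma lemJ_smul {k : ℤ} (f : ModularForm 𝒮ℒ k) (γ : SL(2, ℤ)) (τ : ℍ) :
    f (γ • τ) = (denom γ τ) ^ k * f τ := by
  have h : (f : ℍ → ℂ) ∣[k] γ = f := SlashInvariantForm.slash_action_eqn f _ ⟨γ, rfl⟩
  have h2 := congrFun h τ
  rw [ModularForm.SL_slash_apply] at h2
  rw [← h2, mul_comm, mul_assoc, ← zpow_add₀ (denom_ne_zero _ _)]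
  simp

private lemma lemJ_Delta_smul (γ : SL(2, ℤ)) (τ : ℍ) :
    DeltaF (γ • τ) = (denom γ τ) ^ 12 * DeltaF τ := by
  have h : DeltaF ∣[(12 : ℤ)] γ = DeltaF :=
    SlashInvariantForm.slash_action_eqn CuspForm.discriminant _ ⟨γ, rfl⟩
  have h2 := congrFun h τ
  rw [ModularForm.SL_slash_apply] at h2
  have h3 : denom γ τ ≠ 0 := denom_ne_zero _ _
  rw [← h2, mul_comm, mul_assoc, ← zpow_natCast, ← zpow_add₀ h3]
  simp

private lemma lemJ_jF_smul (γ : SL(2, ℤ)) (τ : ℍ) : jF (γ • τ) = jF τ := by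
  have h1 := lemJ_smul E₄ γ τ
  have h2 := lemJ_Delta_smul γ τ
  have h3 : denom γ τ ≠ 0 := denom_ne_zero _ _
  have h4 : DeltaF τ ≠ 0 := discriminant_ne_zero τ
  rw [jF, jF, h1, h2]
  rw [zpow_ofNat]
  generalize denom γ τ = d at h3
  generalize DeltaF τ = D at h4
  field_simp

private lemma lemJ_mdiff_Delta : MDiff DeltaF := CuspForm.discriminant.holo'

private lemma lemJ_mdiff_jF : MDiff jF :=
  (E₄.holo'.pow 3).div lemJ_mdiff_Delta discriminant_ne_zero

end helpers

/-- A holomorphic `SL₂(ℤ)`-invariant function on `ℍ` of moderate growth is a polynomial in `j`. -/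
theorem exists_poly_of_invariant (h : ℍ → ℂ) (hhol : MDiff h)
    (hinv : ∀ (γ : SL(2, ℤ)) (τ : ℍ), h (γ • τ) = h τ) (M : ℕ)
    (hbd : IsBoundedAtImInfty (fun τ => h τ * DeltaF τ ^ M)) :
    ∃ P : ℂ[X], ∀ τ, h τ = P.eval (jF τ) := by
  open Filter Topology ModularForm EisensteinSeries in
  induction M generalizing h with
  | zero =>
    obtain ⟨c, hc⟩ := lemJ_const hhol hinv (by simpa using hbd)
    exact ⟨C c, fun τ => by simp [hc τ]⟩
  | succ M ih =>
    set F : ℍ → ℂ := fun τ => h τ * DeltaF τ ^ (M + 1) with hF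
    have hFper : Function.Periodic (F ∘ ofComplex) 1 := by
      intro w
      have h1 := lemJ_periodic hinv w
      have h2 := lemJ_periodic_Delta w
      simp only [Function.comp_apply, hF] at h1 h2 ⊢
      rw [h1, h2]
    have hFhol : MDiff F := hhol.mul (lemJ_mdiff_Delta.pow (M + 1))
    set c := cuspFunction 1 F 0 with hc
    have hFt : Tendsto F atImInfty (𝓝 c) := lemJ_tendsto hFper hFhol hbd
    set G : ℍ → ℂ := fun τ => F τ - c * E₄ τ ^ (3 * (M + 1)) with hG
    have hGper : Function.Periodic (G ∘ ofComplex) 1 := by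
      intro w
      have h1 := hFper w
      have h2 := lemJ_periodic_form E₄ w
      simp only [Function.comp_apply, hG] at h1 h2 ⊢
      rw [h1, h2]
    have hGhol : MDiff G := hFhol.sub ((E₄.holo'.pow (3 * (M + 1))).const_smul c)
    have hGt : Tendsto G atImInfty (𝓝 0) := by
      have := hFt.sub ((lemJ_tendsto_E4.pow (3 * (M + 1))).const_mul c)
      simpa using this
    have hGz : IsZeroAtImInfty G := hGt
    have hGO : G =O[atImInfty] DeltaF :=
      (hGz.exp_decay_atImInfty one_pos hGper hGhol hGz.isBoundedAtImInfty).trans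
        (by simpa using exp_isBigO_discriminant)
    have key : ∀ τ, (h τ - c * jF τ ^ (M + 1)) * DeltaF τ ^ M = G τ / DeltaF τ := by
      intro τ
      have : DeltaF τ ≠ 0 := discriminant_ne_zero τ
      simp only [hG, hF, jF, div_pow]
      rw [eq_div_iff this]
      field_simp
      ring
    obtain ⟨P, hP⟩ := ih (fun τ => h τ - c * jF τ ^ (M + 1))
      (hhol.sub ((lemJ_mdiff_jF.pow (M + 1)).const_smul c))
      (fun γ τ => by simp only [hinv, lemJ_jF_smul])
      (by
        simp only [key]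
        rw [IsBoundedAtImInfty, BoundedAtFilter]
        exact (Asymptotics.div_isBoundedUnder_of_isBigO hGO).isBigO_one ℝ)
    exact ⟨P + C c * X ^ (M + 1), fun τ => by simp [← hP τ]⟩

end

end Fermat.Agent.S28
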