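import Fermat.Agent.S28.An.Dict
import Fermat.Agent.S28.An.LevelOne
import Fermat.Agent.S28.An.Subst
import Fermat.Agent.S28.An.Transform
import Fermat.Agent.S28.An.LemmaJ

set_option autoImplicit false

namespace Fermat.Agent.S28

open ModularCurve Polynomial UpperHalfPlane Complex
open scoped MatrixGroups Real Manifold

noncomputable section

theorem sym_affH_one (τ : ℍ) : affH 1 0 1 τ = τ := by
  unfold affH
  have : (((1 : ℕ) : ℂ) * (τ : ℂ) + ((0 : ℤ) : ℂ)) / ((1 : ℕ) : ℂ) = (τ : ℂ) := by simp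
  rw [this, UpperHalfPlane.ofComplex_apply]

theorem sym_rootU_zero_one : rootU 0 1 = 1 := by
  apply Units.ext
  simp [rootU]

theorem isExp_jF_level (N : ℕ) [NeZero N] : IsExp N jF (JC N) := by
  have h := isExp_jF.comp_affH (N := N) (a := 1) (δ := 1) (m := N) 0
    (Nat.pos_of_ne_zero (NeZero.ne N)) one_pos one_pos (by ring)
  rw [sym_rootU_zero_one, substL_one] at h
  simpa [sym_affH_one, JC] using h

/-- the graph of the expansion relation restricted to holomorphic functions, as a subring. -/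
def symSubring (N : ℕ) : Subring ((ℍ → ℂ) × LaurentSeries ℂ) where
  carrier := {p | IsExp N p.1 p.2 ∧ MDiff p.1}
  mul_mem' := fun ha hb => ⟨IsExp.mul ha.1 hb.1, ha.2.mul hb.2⟩
  one_mem' := ⟨isExp_one N, mdifferentiable_const⟩
  add_mem' := fun ha hb => ⟨IsExp.add ha.1 hb.1, ha.2.add hb.2⟩
  zero_mem' := ⟨isExp_zero N, mdifferentiable_const⟩
  neg_mem' := fun ha => ⟨IsExp.neg ha.1, ha.2.neg⟩

/-- precomposition with the action of `γ`, as a ring hom. -/
def symAct (γ : SL(2, ℤ)) : (ℍ → ℂ) →+* (ℍ → ℂ) :=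
  RingHom.pi (fun τ => Pi.evalRingHom (fun _ : ℍ => ℂ) (γ • τ))

@[simp] theorem symAct_apply (γ : SL(2, ℤ)) (h : ℍ → ℂ) (τ : ℍ) : symAct γ h τ = h (γ • τ) := rfl

/-- General principle: a polynomial over the ring of pairs (holomorphic function, expansion) whose
function part is `SL₂(ℤ)`-invariant has its expansion part defined over `ℂ[j]`. -/
theorem sym_general (N : ℕ) [NeZero N] (Q : (symSubring N)[X])
    (hinv : ∀ γ : SL(2, ℤ),
      (Q.map ((RingHom.fst (ℍ → ℂ) (LaurentSeries ℂ)).comp (symSubring N).subtype)).map (symAct γ) =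
        Q.map ((RingHom.fst (ℍ → ℂ) (LaurentSeries ℂ)).comp (symSubring N).subtype)) :
    ∃ W : ℂ[X][X], W.map (evP ℂ (JC N)) =
      Q.map ((RingHom.snd (ℍ → ℂ) (LaurentSeries ℂ)).comp (symSubring N).subtype) := by
  have hN : 0 < N := Nat.pos_of_ne_zero (NeZero.ne N)
  have key : ∀ k : ℕ, ∃ P : ℂ[X], evP ℂ (JC N) P = ((Q.coeff k : symSubring N) :
      (ℍ → ℂ) × LaurentSeries ℂ).2 := by
    intro k
    obtain ⟨hexp, hhol⟩ := (Q.coeff k).2
    have hi : ∀ (γ : SL(2, ℤ)) (τ : ℍ),
        ((Q.coeff k : symSubring N) : (ℍ → ℂ) × LaurentSeries ℂ).1 (γ • τ) =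
          ((Q.coeff k : symSubring N) : (ℍ → ℂ) × LaurentSeries ℂ).1 τ := by
      intro γ τ
      have h1 := congrArg (fun p => p.coeff k) (hinv γ)
      simp only [coeff_map] at h1
      have h2 := congrFun h1 τ
      simpa using h2
    obtain ⟨M, hM⟩ := hexp.exists_isBoundedAtImInfty hN
    obtain ⟨P, hP⟩ := exists_poly_of_invariant _ hhol hi M hM
    refine ⟨P, ?_⟩
    have h3 : IsExp N ((Q.coeff k : symSubring N) : (ℍ → ℂ) × LaurentSeries ℂ).1
        (evP ℂ (JC N) P) := by
      have h4 := (isExp_jF_level N).aeval P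
      have h5 : (fun τ => P.eval (jF τ)) =
          ((Q.coeff k : symSubring N) : (ℍ → ℂ) × LaurentSeries ℂ).1 := by
        funext τ
        exact (hP τ).symm
      rwa [h5] at h4
    exact h3.unique hN hexp
  choose P hP using key
  refine ⟨∑ k ∈ Finset.range (Q.natDegree + 1), C (P k) * X ^ k, ?_⟩
  ext1 k
  simp only [Polynomial.map_sum, Polynomial.map_mul, Polynomial.map_C, Polynomial.map_pow,
    Polynomial.map_X, finsetSum_coeff, coeff_C_mul, coeff_X_pow, coeff_map, hP]
  simp only [mul_ite, mul_one, mul_zero, Finset.sum_ite_eq, Finset.mem_range]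
  split_ifs with hk
  · simp
  · have : Q.coeff k = 0 := coeff_eq_zero_of_natDegree_lt (by omega)
    simp [this]

/-- The characteristic polynomial of a finite family of holomorphic functions permuted by
`SL₂(ℤ)`, all having Laurent expansions in `t`, has coefficients in `ℂ[j]` - formal version. -/
theorem sym_prod {ι : Type} [Fintype ι] [DecidableEq ι] (N : ℕ) [NeZero N]
    (f : ι → ℍ → ℂ) (F : ι → LaurentSeries ℂ)
    (hexp : ∀ i, IsExp N (f i) (F i)) (hhol : ∀ i, MDiff (f i))
    (perm : SL(2, ℤ) → Equiv.Perm ι) (hperm : ∀ γ i τ, f i (γ • τ) = f (perm γ i) τ) :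
    ∃ W : ℂ[X][X], W.map (evP ℂ (JC N)) = ∏ i, (X - C (F i)) := by
  let a : ι → symSubring N := fun i => ⟨(f i, F i), hexp i, hhol i⟩
  obtain ⟨W, hW⟩ := sym_general N (∏ i, (X - C (a i))) (by
    intro γ
    simp only [Polynomial.map_prod, Polynomial.map_sub, Polynomial.map_X, Polynomial.map_C]
    have h1 : ∀ i, symAct γ (((RingHom.fst (ℍ → ℂ) (LaurentSeries ℂ)).comp
        (symSubring N).subtype) (a i)) = ((RingHom.fst (ℍ → ℂ) (LaurentSeries ℂ)).comp
        (symSubring N).subtype) (a (perm γ i)) := by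
      intro i
      funext τ
      exact hperm γ i τ
    simp only [h1]
    exact Equiv.prod_comp (perm γ) (fun i => (X - C (((RingHom.fst (ℍ → ℂ) (LaurentSeries ℂ)).comp
        (symSubring N).subtype) (a i)) : (ℍ → ℂ)[X])))
  refine ⟨W, hW.trans ?_⟩
  simp only [Polynomial.map_prod, Polynomial.map_sub, Polynomial.map_X, Polynomial.map_C]
  rfl

/-- Same for the Lagrange interpolation numerator of a second family permuted the same way. -/
theorem sym_interp {ι : Type} [Fintype ι] [DecidableEq ι] (N : ℕ) [NeZero N]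
    (f : ι → ℍ → ℂ) (F : ι → LaurentSeries ℂ)
    (hexp : ∀ i, IsExp N (f i) (F i)) (hhol : ∀ i, MDiff (f i))
    (g : ι → ℍ → ℂ) (G : ι → LaurentSeries ℂ)
    (hexpg : ∀ i, IsExp N (g i) (G i)) (hholg : ∀ i, MDiff (g i))
    (perm : SL(2, ℤ) → Equiv.Perm ι) (hperm : ∀ γ i τ, f i (γ • τ) = f (perm γ i) τ)
    (hpermg : ∀ γ i τ, g i (γ • τ) = g (perm γ i) τ) :
    ∃ P : ℂ[X][X], P.map (evP ℂ (JC N)) =
      ∑ i, C (G i) * ∏ k ∈ Finset.univ.erase i, (X - C (F k)) := by
  let a : ι → symSubring N := fun i => ⟨(f i, F i), hexp i, hhol i⟩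
  let b : ι → symSubring N := fun i => ⟨(g i, G i), hexpg i, hholg i⟩
  obtain ⟨W, hW⟩ := sym_general N (∑ i, C (b i) * ∏ k ∈ Finset.univ.erase i, (X - C (a k))) (by
    intro γ
    simp only [Polynomial.map_sum, Polynomial.map_mul, Polynomial.map_prod, Polynomial.map_sub,
      Polynomial.map_X, Polynomial.map_C]
    have h1 : ∀ i, symAct γ (((RingHom.fst (ℍ → ℂ) (LaurentSeries ℂ)).comp
        (symSubring N).subtype) (a i)) = ((RingHom.fst (ℍ → ℂ) (LaurentSeries ℂ)).comp
        (symSubring N).subtype) (a (perm γ i)) := by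
      intro i
      funext τ
      exact hperm γ i τ
    have h2 : ∀ i, symAct γ (((RingHom.fst (ℍ → ℂ) (LaurentSeries ℂ)).comp
        (symSubring N).subtype) (b i)) = ((RingHom.fst (ℍ → ℂ) (LaurentSeries ℂ)).comp
        (symSubring N).subtype) (b (perm γ i)) := by
      intro i
      funext τ
      exact hpermg γ i τ
    simp only [h1, h2]
    set φ : ι → (ℍ → ℂ)[X] := fun i => (X - C (((RingHom.fst (ℍ → ℂ) (LaurentSeries ℂ)).comp
        (symSubring N).subtype) (a i)) : (ℍ → ℂ)[X]) with hφ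
    set ψ : ι → (ℍ → ℂ)[X] := fun i => (C (((RingHom.fst (ℍ → ℂ) (LaurentSeries ℂ)).comp
        (symSubring N).subtype) (b i)) : (ℍ → ℂ)[X]) with hψ
    have h3 : ∀ i, ∏ k ∈ Finset.univ.erase i, φ (perm γ k) =
        ∏ k ∈ Finset.univ.erase (perm γ i), φ k := by
      intro i
      refine Finset.prod_bij (fun k _ => perm γ k) ?_ ?_ ?_ ?_
      · intro k hk
        simp only [Finset.mem_erase, Finset.mem_univ, and_true] at hk ⊢
        exact fun h => hk ((perm γ).injective h)
      · intro k _ k' _ h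
        exact (perm γ).injective h
      · intro k hk
        refine ⟨(perm γ).symm k, ?_, by simp⟩
        simp only [Finset.mem_erase, Finset.mem_univ, and_true] at hk ⊢
        intro h
        exact hk (by rw [← h]; simp)
      · intro k _
        rfl
    calc ∑ i, ψ (perm γ i) * ∏ k ∈ Finset.univ.erase i, φ (perm γ k)
        = ∑ i, ψ (perm γ i) * ∏ k ∈ Finset.univ.erase (perm γ i), φ k := by
          simp only [h3]
      _ = ∑ i, ψ i * ∏ k ∈ Finset.univ.erase i, φ k :=
          Equiv.sum_comp (perm γ) (fun i => ψ i * ∏ k ∈ Finset.univ.erase i, φ k))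
  refine ⟨W, hW.trans ?_⟩
  simp only [Polynomial.map_sum, Polynomial.map_mul, Polynomial.map_prod, Polynomial.map_sub,
    Polynomial.map_X, Polynomial.map_C]
  rfl

end

end Fermat.Agent.S28
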